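/-
ES project (Galois representations of weight-2 eigenforms), part (D).
Frozen INTERFACE between the arithmetic/analytic parts (A)+(B)+(C) and the soft algebra (D).
-/
import Mathlib
import Fermat.Agent.ES.Defs
import Fermat.Prelude.Def_GaloisRep_Residual
import Fermat.Prelude.Def_CuspForm_HeckeAlgebra

set_option autoImplicit false

namespace Fermat.Agent.ES.D

/-- primes not dividing the level. -/
abbrev GoodPrime (N : ℕ) : Type := {ℓ : ℕ // ℓ.Prime ∧ ¬ ℓ ∣ N}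

/-- The Hecke operator `T_ℓ` on `S_2(Γ0(N))` indexed by a good prime. -/
noncomputable def heckeS2 (N : ℕ) [NeZero N] (ℓ : GoodPrime N) :
    Module.End ℂ (CuspForm (CongruenceSubgroup.Gamma0 N) 2) :=
  CuspForm.heckeTLin 2 ℓ.2.1 ℓ.2.2

/-- **The Eichler-Shimura group of level `N`** (think: `Pic⁰(X_0(N))(Q̄)`, or only its torsion
subgroup, or `⋃ K_m / F^×` in the notation of the ES seed).  This is everything that part (D)
needs from parts (A), (B), (C). -/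
structure ESGroup (N : ℕ) [NeZero N] where
  /-- the points -/
  Pt : Type
  [acg : AddCommGroup Pt]
  /-- the Galois action -/
  ρ : GQ →* Module.End ℤ Pt
  /-- the Hecke operators -/
  T : GoodPrime N → Module.End ℤ Pt
  T_comm : ∀ ℓ ℓ' : GoodPrime N, Commute (T ℓ) (T ℓ')
  T_ρ_comm : ∀ (ℓ : GoodPrime N) (σ : GQ), Commute (T ℓ) (ρ σ)
  /-- (A): `Pt[m]` is finite. -/
  finite_torsion : ∀ m : ℕ, 0 < m → {x : Pt | m • x = 0}.Finite
  /-- torsion points are defined over number fields. -/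
  smooth : ∀ (m : ℕ), 0 < m → ∀ x : Pt, m • x = 0 →
    ∃ L : IntermediateField ℚ Qb, FiniteDimensional ℚ L ∧
      ∀ σ : GQ, (∀ y ∈ L, σ y = y) → ρ σ x = x
  /-- (B)+(C): inertia at `ℓ ∤ N m` acts trivially on `Pt[m]`. -/
  unram : ∀ (m ℓ : ℕ), ℓ.Prime → ¬ ℓ ∣ N * m →
    ∀ A : ValuationSubring Qb, A.LiesOverPrime ℓ → ∀ σ ∈ A.inertiaSubgroupIn ℚ,
      ∀ x : Pt, m • x = 0 → ρ σ x = x
  /-- (B)+(C): the Eichler-Shimura relation `φ² - T_ℓ φ + ℓ = 0` on `Pt[m]`, `ℓ ∤ N m`. -/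
  eichlerShimura : ∀ (m : ℕ) (ℓ : GoodPrime N), ¬ ℓ.1 ∣ m →
    ∀ A : ValuationSubring Qb, A.LiesOverPrime ℓ.1 → ∀ σ : GQ, A.IsFrobeniusAt σ ℓ.1 →
      ∀ x : Pt, m • x = 0 → ρ σ (ρ σ x) - T ℓ (ρ σ x) + ℓ.1 • x = 0
  /-- (A): a (noncommutative) polynomial in the `T_ℓ` which kills `Pt[m]` is `m` times an integral
  operator on `S_2(Γ0(N))`. -/
  supp : ∀ (m : ℕ), 0 < m → ∀ P : FreeAlgebra ℤ (GoodPrime N),
    (∀ x : Pt, m • x = 0 → FreeAlgebra.lift ℤ T P x = 0) →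
    ∃ Q : Module.End ℂ (CuspForm (CongruenceSubgroup.Gamma0 N) 2), IsIntegral ℤ Q ∧
      FreeAlgebra.lift ℤ (heckeS2 N) P = (m : ℤ) • Q

attribute [instance] ESGroup.acg

/-- **The Eichler-Shimura module of level `N` and exponent `m`** (think: `Kum N m = J_0(N)[m]`).
This is the per-`m` form of the interface; S29/S42 only need `m = p`. -/
structure ESModule (N : ℕ) [NeZero N] (m : ℕ) where
  /-- the underlying finite abelian group -/
  V : Type
  [acg : AddCommGroup V]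
  /-- (A) -/
  [fin : Finite V]
  /-- the Galois action -/
  ρ : GQ →* Module.End ℤ V
  /-- the Hecke operators -/
  T : GoodPrime N → Module.End ℤ V
  T_comm : ∀ ℓ ℓ' : GoodPrime N, Commute (T ℓ) (T ℓ')
  T_ρ_comm : ∀ (ℓ : GoodPrime N) (σ : GQ), Commute (T ℓ) (ρ σ)
  /-- every element is fixed by an open subgroup. -/
  smooth : ∀ x : V, ∃ L : IntermediateField ℚ Qb, FiniteDimensional ℚ L ∧
      ∀ σ : GQ, (∀ y ∈ L, σ y = y) → ρ σ x = x
  /-- (B)+(C): inertia at `ℓ ∤ N m` acts trivially. -/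
  unram : ∀ ℓ : ℕ, ℓ.Prime → ¬ ℓ ∣ N * m →
    ∀ A : ValuationSubring Qb, A.LiesOverPrime ℓ → ∀ σ ∈ A.inertiaSubgroupIn ℚ,
      ∀ x : V, ρ σ x = x
  /-- (B)+(C): the Eichler-Shimura relation `φ² - T_ℓ φ + ℓ = 0`, `ℓ ∤ N m`. -/
  eichlerShimura : ∀ ℓ : GoodPrime N, ¬ ℓ.1 ∣ m →
    ∀ A : ValuationSubring Qb, A.LiesOverPrime ℓ.1 → ∀ σ : GQ, A.IsFrobeniusAt σ ℓ.1 →
      ∀ x : V, ρ σ (ρ σ x) - T ℓ (ρ σ x) + ℓ.1 • x = 0
  /-- (A): a (noncommutative) polynomial in the `T_ℓ` which kills `V` is `m` times an integral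
  operator on `S_2(Γ0(N))`. -/
  supp : ∀ P : FreeAlgebra ℤ (GoodPrime N), FreeAlgebra.lift ℤ T P = 0 →
    ∃ Q : Module.End ℂ (CuspForm (CongruenceSubgroup.Gamma0 N) 2), IsIntegral ℤ Q ∧
      FreeAlgebra.lift ℤ (heckeS2 N) P = (m : ℤ) • Q

attribute [instance] ESModule.acg ESModule.fin

/-- **Frobenius density, power form**: the restriction of every `σ ∈ G_ℚ` to a number field `L`
is a power of a Frobenius element at a prime outside any given finite set. -/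
def FrobPowerDensity : Prop :=
  ∀ (L : IntermediateField ℚ Qb), FiniteDimensional ℚ L → ∀ (σ : GQ) (S : Finset ℕ),
    ∃ (ℓ : ℕ) (A : ValuationSubring Qb) (φ : GQ) (j : ℕ), ℓ.Prime ∧ ℓ ∉ S ∧
      A.LiesOverPrime ℓ ∧ A.IsFrobeniusAt φ ℓ ∧ ∀ x ∈ L, σ x = (φ ^ j) x

end Fermat.Agent.ES.D
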