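/-
ES (D3): the mod `m` cyclotomic character of `G_ℚ`: values on Frobenius elements, inertia,
finite level.
-/
import Fermat.Agent.ES.D.Defs
import Fermat.Agent.S05.Inertia
import Fermat.Prelude.Def_ExtCitation_AdmissibleExtension

set_option autoImplicit false

namespace Fermat.Agent.ES.D

theorem isAlgClosure_Qb : IsAlgClosure ℚ Qb :=
  (inferInstance : @IsAlgClosure ℚ (AlgebraicClosure ℚ) _ _ (AlgebraicClosure.instAlgebra ℚ) _)

theorem isAlgebraic_Qb : Algebra.IsAlgebraic ℚ Qb := isAlgClosure_Qb.isAlgebraic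

/-- the mod `m` cyclotomic character. -/
noncomputable def cyc (m : ℕ) [NeZero m] : GQ →* (ZMod m)ˣ :=
  MonoidHom.mk'
    (fun σ => modularCyclotomicCharacter Qb (IsAlgClosed.card_rootsOfUnity_eq Qb m)
      (σ : Qb ≃+* Qb))
    (fun a b => by rw [← map_mul]; congr 1)

theorem cyc_spec (m : ℕ) [NeZero m] (σ : GQ) (ζ : Qb) (hζ : ζ ^ m = 1) :
    σ ζ = ζ ^ ((cyc m σ : (ZMod m)ˣ) : ZMod m).val := by
  have hu : IsUnit ζ := IsUnit.of_pow_eq_one hζ (NeZero.ne m)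
  obtain ⟨u, rfl⟩ := hu
  have hmem : u ∈ rootsOfUnity m Qb := by
    rw [mem_rootsOfUnity]; ext; simpa using hζ
  exact modularCyclotomicCharacter.spec Qb (IsAlgClosed.card_rootsOfUnity_eq Qb m)
    (σ : Qb ≃+* Qb) hmem

/-- characterisation of the value of `cyc`. -/
theorem cyc_eq_of_forall (m : ℕ) [NeZero m] (σ : GQ) (c : ZMod m)
    (hc : ∀ ζ : Qb, ζ ^ m = 1 → σ ζ = ζ ^ c.val) : ((cyc m σ : (ZMod m)ˣ) : ZMod m) = c := by
  refine (modularCyclotomicCharacter.unique Qb (IsAlgClosed.card_rootsOfUnity_eq Qb m)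
    (σ : Qb ≃+* Qb) (c := c) ?_).symm
  intro t ht
  have : ((t : Qb)) ^ m = 1 := by
    rw [mem_rootsOfUnity] at ht
    have := congrArg Units.val ht
    simpa using this
  exact hc t this

/-- unpacking of `IsFrobeniusAt`. -/
theorem frobenius_spec {A : ValuationSubring Qb} {σ : GQ} {ℓ : ℕ} (hσ : A.IsFrobeniusAt σ ℓ)
    (x : Qb) (hx : A.valuation x ≤ 1) : A.valuation (σ x - x ^ ℓ) < 1 := by
  rw [A.valuation_le_one_iff] at hx
  have h2 := hσ.smul_residue_eq (IsLocalRing.residue A ⟨x, hx⟩)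
  rw [← IsLocalRing.ResidueField.residue_smul, ← map_pow] at h2
  have h3 : ((⟨σ, hσ.mem_decompositionSubgroup⟩ : A.decompositionSubgroup ℚ) • (⟨x, hx⟩ : A))
      - (⟨x, hx⟩ : A) ^ ℓ ∈ IsLocalRing.maximalIdeal A := by
    rw [← IsLocalRing.residue_eq_zero_iff, map_sub, h2, sub_self]
  rw [A.valuation_lt_one_iff] at h3
  exact h3

/-- roots of unity of order prime to the residue characteristic are distinct mod `𝔪_A`. -/
theorem eq_one_of_pow_eq_one_of_val_lt {A : ValuationSubring Qb} {ℓ m : ℕ} (hℓ : ℓ.Prime)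
    (hA : A.LiesOverPrime ℓ) (hm : ¬ ℓ ∣ m) {η : Qb} (hη : η ^ m = 1)
    (h : A.valuation (η - 1) < 1) : η = 1 := by
  by_contra hne
  have hsum : ∑ i ∈ Finset.range m, η ^ i = 0 := by
    have h1 := mul_neg_geom_sum η m
    rw [hη, sub_self] at h1
    rcases mul_eq_zero.mp h1 with h2 | h2
    · exact absurd (sub_eq_zero.mp h2).symm hne
    · exact h2
  have hη1 : A.valuation η ≤ 1 := by
    have : η = (η - 1) + 1 := by ring
    rw [this]
    exact (A.valuation.map_add _ _).trans (max_le h.le (by rw [map_one]))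
  have hpow : ∀ i : ℕ, A.valuation (η ^ i - 1) < 1 := by
    intro i
    induction i with
    | zero => simp
    | succ n ih =>
      have : η ^ (n + 1) - 1 = η * (η ^ n - 1) + (η - 1) := by ring
      rw [this]
      refine Valuation.map_add_lt _ ?_ h
      rw [map_mul]
      exact lt_of_le_of_lt (mul_le_of_le_one_left' hη1) ih
  have hm' : A.valuation ((m : ℤ) : Qb) < 1 := by
    have : ((m : ℤ) : Qb) = - ∑ i ∈ Finset.range m, (η ^ i - 1) := by
      rw [Finset.sum_sub_distrib, hsum]; simp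
    rw [this, Valuation.map_neg]
    exact Valuation.map_sum_lt _ one_ne_zero (fun i _ => hpow i)
  have := ((S05.val_int A hℓ hA (m : ℤ)).2).mp hm'
  exact hm (by exact_mod_cast this)

theorem eq_of_pow_eq_one_of_val_lt {A : ValuationSubring Qb} {ℓ m : ℕ} (hℓ : ℓ.Prime)
    (hA : A.LiesOverPrime ℓ) (hm : ¬ ℓ ∣ m) {η ξ : Qb} (hη : η ^ m = 1) (hξ : ξ ^ m = 1)
    (hm0 : m ≠ 0) (h : A.valuation (η - ξ) < 1) : η = ξ := by
  have hξ0 : ξ ≠ 0 := by
    rintro rfl
    rw [zero_pow hm0] at hξ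
    exact zero_ne_one hξ
  have hvξ : A.valuation ξ = 1 := by
    have : A.valuation ξ ^ m = 1 := by rw [← map_pow, hξ, map_one]
    exact (pow_eq_one_iff.mp this).resolve_right hm0
  have h1 : η / ξ = 1 := by
    apply eq_one_of_pow_eq_one_of_val_lt hℓ hA hm (by rw [div_pow, hη, hξ, div_one])
    have : η / ξ - 1 = (η - ξ) / ξ := by field_simp
    rw [this, map_div₀, hvξ, div_one]
    exact h
  exact (div_eq_one_iff_eq hξ0).mp h1

theorem val_le_one_of_pow_eq_one (A : ValuationSubring Qb) {m : ℕ} (hm0 : m ≠ 0) {ξ : Qb}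
    (hξ : ξ ^ m = 1) : A.valuation ξ ≤ 1 := by
  have : A.valuation ξ ^ m = 1 := by rw [← map_pow, hξ, map_one]
  exact ((pow_eq_one_iff.mp this).resolve_right hm0).le

theorem cyc_frobenius (m : ℕ) [NeZero m] {ℓ : ℕ} (hℓ : ℓ.Prime) (hm : ¬ ℓ ∣ m)
    {A : ValuationSubring Qb} (hA : A.LiesOverPrime ℓ) {σ : GQ} (hσ : A.IsFrobeniusAt σ ℓ) :
    ((cyc m σ : (ZMod m)ˣ) : ZMod m) = (ℓ : ZMod m) := by
  apply cyc_eq_of_forall
  intro ζ hζ
  have h1 : σ ζ = ζ ^ ℓ := by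
    apply eq_of_pow_eq_one_of_val_lt hℓ hA hm _ _ (NeZero.ne m)
      (frobenius_spec hσ ζ (val_le_one_of_pow_eq_one A (NeZero.ne m) hζ))
    · rw [← map_pow, hζ, map_one]
    · rw [← pow_mul, mul_comm, pow_mul, hζ, one_pow]
  rw [h1, ZMod.val_natCast]
  conv_lhs => rw [← Nat.div_add_mod ℓ m, pow_add, pow_mul, hζ, one_pow, one_mul]

theorem cyc_inertia (m : ℕ) [NeZero m] {ℓ : ℕ} (hℓ : ℓ.Prime) (hm : ¬ ℓ ∣ m)
    {A : ValuationSubring Qb} (hA : A.LiesOverPrime ℓ) {σ : GQ}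
    (hσ : σ ∈ A.inertiaSubgroupIn ℚ) : cyc m σ = 1 := by
  have hfix : ∀ ζ : Qb, ζ ^ m = 1 → σ ζ = ζ := by
    intro ζ hζ
    apply eq_of_pow_eq_one_of_val_lt hℓ hA hm _ hζ (NeZero.ne m)
      ((S05.inertia_spec A σ hσ).2 ζ (val_le_one_of_pow_eq_one A (NeZero.ne m) hζ))
    rw [← map_pow, hζ, map_one]
  ext
  rw [Units.val_one]
  apply cyc_eq_of_forall
  intro ζ hζ
  rw [hfix ζ hζ]
  by_cases h1 : m = 1
  · subst h1
    simp at hζ
    simp [hζ]
  · have : Fact (1 < m) := ⟨by have := NeZero.ne m; omega⟩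
    rw [ZMod.val_one, pow_one]

theorem cyc_eq_one_of_fixes (m : ℕ) [NeZero m] (σ : GQ)
    (hfix : ∀ ζ : Qb, ζ ^ m = 1 → σ ζ = ζ) : cyc m σ = 1 := by
  ext
  rw [Units.val_one]
  apply cyc_eq_of_forall
  intro ζ hζ
  rw [hfix ζ hζ]
  by_cases h1 : m = 1
  · subst h1
    simp at hζ
    simp [hζ]
  · have : Fact (1 < m) := ⟨by have := NeZero.ne m; omega⟩
    rw [ZMod.val_one, pow_one]

theorem cyc_finiteLevel (m : ℕ) [NeZero m] : GaloisFactorsThroughFiniteLevel (cyc m) := by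
  have hfin : {ζ : Qb | ζ ^ m = 1}.Finite := by
    have : {ζ : Qb | ζ ^ m = 1} ⊆ ((Polynomial.nthRoots m (1 : Qb)).toFinset : Set Qb) := by
      intro ζ hζ
      simp only [Finset.mem_coe, Multiset.mem_toFinset]
      exact (Polynomial.mem_nthRoots (Nat.pos_of_ne_zero (NeZero.ne m))).mpr hζ
    exact (Finset.finite_toSet _).subset this
  refine ⟨IntermediateField.adjoin ℚ {ζ : Qb | ζ ^ m = 1}, ?_, ?_⟩
  · have := hfin.to_subtype
    exact IntermediateField.finiteDimensional_adjoin (fun x _ => (isAlgebraic_Qb.isAlgebraic x).isIntegral)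
  · intro σ hσ
    exact cyc_eq_one_of_fixes m σ (fun ζ hζ => hσ ζ (IntermediateField.subset_adjoin _ _ hζ))

end Fermat.Agent.ES.D
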