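/-
ES (D1)+(D2): an irreducible representation all of whose elements satisfy a quadratic relation
`g² - t_g g + d(g) = 0` with `d` a character has dimension `≤ 2`, and in dimension `2`
the quadratic polynomial is the characteristic polynomial.
-/
import Mathlib

set_option autoImplicit false

namespace Fermat.Agent.ES.D

open Polynomial

theorem quad_pow_aux {k R : Type*} [Field k] [Ring R] [Algebra k R] {x y : R} {t d : k}
    (hc : Commute x y) (hs : x + y = t • (1 : R)) (hp : x * y = d • (1 : R)) (j : ℕ) :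
    (∃ s : k, x ^ j + y ^ j = s • (1 : R)) ∧ (∃ s : k, x ^ (j+1) + y ^ (j+1) = s • (1 : R)) := by
  induction j with
  | zero =>
    refine ⟨⟨2, ?_⟩, ⟨t, by simpa using hs⟩⟩
    simp only [pow_zero]
    rw [← one_add_one_eq_two, add_smul, one_smul]
  | succ n ih =>
    obtain ⟨⟨s0, h0⟩, ⟨s1, h1⟩⟩ := ih
    refine ⟨⟨s1, h1⟩, ⟨t * s1 - d * s0, ?_⟩⟩
    have e : x ^ (n + 1 + 1) + y ^ (n + 1 + 1)
        = (x + y) * (x ^ (n + 1) + y ^ (n + 1)) - (x * y) * (x ^ n + y ^ n) := by
      have h2 : y * x ^ (n+1) = x * y * x ^ n := by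
        rw [pow_succ', ← mul_assoc, hc.eq]
      have h3 : x * y ^ (n+1) = x * y * y ^ n := by
        rw [pow_succ', ← mul_assoc]
      rw [add_mul, mul_add, mul_add, mul_add, h2, h3, pow_succ' x (n+1), pow_succ' y (n+1)]
      abel
    rw [e, hs, hp, h0, h1]
    simp only [smul_mul_assoc, one_mul, smul_smul, sub_smul]

theorem quad_pow {k R : Type*} [Field k] [Ring R] [Algebra k R] {x : R} {t d : k}
    (h : x * x - t • x + d • (1 : R) = 0) (j : ℕ) :
    ∃ s : k, x ^ j * x ^ j - s • x ^ j + d ^ j • (1 : R) = 0 := by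
  set y : R := t • (1 : R) - x with hy
  have hc : Commute x y := by
    rw [hy]
    exact ((Commute.one_right x).smul_right t).sub_right (Commute.refl x)
  have hs : x + y = t • (1 : R) := by rw [hy]; abel
  have hp : x * y = d • (1 : R) := by
    rw [hy, mul_sub, mul_smul_comm, mul_one]
    have : d • (1 : R) = t • x - x * x := by
      rw [eq_sub_iff_add_eq]
      have h' := h
      rw [sub_add_eq_add_sub, sub_eq_zero] at h'
      rw [add_comm]; exact h'
    rw [this]
  obtain ⟨s, hsj⟩ := (quad_pow_aux hc hs hp j).1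
  refine ⟨s, ?_⟩
  have h1 : s • x ^ j = (x ^ j + y ^ j) * x ^ j := by rw [hsj, smul_mul_assoc, one_mul]
  have h2 : y ^ j * x ^ j = d ^ j • (1 : R) := by
    rw [← (hc.symm).mul_pow, hc.symm.eq, hp, _root_.smul_pow, one_pow]
  rw [h1, add_mul, h2]
  abel

section
variable {k U G : Type*} [Field k] [AddCommGroup U] [Module k U] [Group G]
  (ρ : G →* Module.End k U)

/-- linear extension of `ρ` to formal combinations of group elements. -/
noncomputable def piLin : (G →₀ k) →ₗ[k] Module.End k U :=
  Finsupp.linearCombination k (fun g => ρ g)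

theorem piLin_single (g : G) (c : k) : piLin ρ (Finsupp.single g c) = c • ρ g := by
  simp [piLin]

theorem mem_range_piLin_of_mem_adjoin {a : Module.End k U}
    (ha : a ∈ Algebra.adjoin k (Set.range ρ)) : ∃ x, piLin ρ x = a := by
  rw [← Subalgebra.mem_toSubmodule, Algebra.adjoin_eq_span] at ha
  have h1 : (Submonoid.closure (Set.range ρ) : Set (Module.End k U)) = Set.range ρ := by
    rw [← MonoidHom.coe_mrange, Submonoid.closure_eq]
  rw [h1] at ha
  exact (Finsupp.mem_span_range_iff_exists_finsupp.mp ha).imp fun c hc => by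
    rw [piLin, Finsupp.linearCombination_apply]; exact hc

theorem burnside [IsAlgClosed k] [FiniteDimensional k U] [Nontrivial U]
    (hirr : ∀ W : Submodule k U, (∀ g, ∀ x ∈ W, ρ g x ∈ W) → W = ⊥ ∨ W = ⊤) :
    Function.Surjective (piLin ρ) := by
  classical
  intro f₀
  let A := Algebra.adjoin k (Set.range ρ)
  have hsimple : IsSimpleModule A U := by
    rw [isSimpleModule_iff]
    refine { exists_pair_ne := ⟨⊥, ⊤, bot_ne_top⟩, eq_bot_or_eq_top := ?_ }
    intro W
    have := hirr (W.restrictScalars k) (fun g x hx => by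
      have : (⟨ρ g, Algebra.subset_adjoin ⟨g, rfl⟩⟩ : A) • x ∈ W := W.smul_mem _ hx
      exact this)
    rcases this with h | h
    · left
      exact (Submodule.restrictScalars_eq_bot_iff k A U).mp h
    · right
      exact (Submodule.restrictScalars_eq_top_iff k A U).mp h
  let f : Module.End (Module.End A U) U :=
    { toFun := f₀
      map_add' := f₀.map_add
      map_smul' := by
        intro φ u
        obtain ⟨c, hc⟩ := (IsSimpleModule.algebraMap_end_bijective_of_isAlgClosed (A := A) (V := U) k).2 φ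
        subst hc
        simp }
  let b := Module.finBasis k U
  obtain ⟨a, ha⟩ := jacobson_density (R := A) f (Finset.univ.image b)
  obtain ⟨x, hx⟩ := mem_range_piLin_of_mem_adjoin ρ a.2
  refine ⟨x, ?_⟩
  rw [hx]
  apply b.ext
  intro i
  exact (ha (b i) (Finset.mem_image_of_mem _ (Finset.mem_univ i))).symm
variable (d : G →* kˣ) (t : G → k)

theorem quad_rel_base
    (ht : ∀ g, ρ g * ρ g - t g • ρ g + (d g : k) • (1 : Module.End k U) = 0) (g h : G) :
    ρ g * ρ h + ρ h * ρ g
      = t h • ρ g + t g • ρ h + (t (g * h) - t g * t h) • (1 : Module.End k U) := by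
  have hstar : ∀ g, t g • (1 : Module.End k U) - ρ g = (d g : k) • ρ g⁻¹ := by
    intro g
    have h1 : ρ g⁻¹ * ρ g = 1 := by rw [← map_mul, inv_mul_cancel, map_one]
    have h2 := congrArg (fun z => ρ g⁻¹ * z) (ht g)
    simp only [mul_add, mul_sub, mul_zero, mul_smul_comm, mul_one, ← mul_assoc, h1, one_mul] at h2
    rw [sub_eq_iff_eq_add]
    have h3 : ρ g + (d g : k) • ρ g⁻¹ = t g • (1 : Module.End k U) := by
      rw [← sub_eq_zero, ← h2]; abel
    rw [← h3]; abel
  have h1 : t (g * h) • (1 : Module.End k U) - ρ g * ρ h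
      = (t h • (1 : Module.End k U) - ρ h) * (t g • (1 : Module.End k U) - ρ g) := by
    rw [hstar h, hstar g, ← map_mul, hstar (g * h), smul_mul_smul_comm, ← map_mul, mul_inv_rev,
      map_mul, Units.val_mul, mul_comm (d g : k)]
  simp only [sub_mul, mul_sub, smul_mul_assoc, mul_smul_comm, one_mul, mul_one, smul_sub,
    smul_smul] at h1
  have h2 : ρ g * ρ h = t (g * h) • (1 : Module.End k U)
      - ((t g * t h) • (1 : Module.End k U) - t g • ρ h - (t h • ρ g - ρ h * ρ g)) := by
    rw [← h1]; abel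
  rw [h2, sub_smul]
  abel

theorem quad_rel
    (ht : ∀ g, ρ g * ρ g - t g • ρ g + (d g : k) • (1 : Module.End k U) = 0) (x y : G →₀ k) :
    ∃ c : k, piLin ρ x * piLin ρ y + piLin ρ y * piLin ρ x
      = Finsupp.linearCombination k t y • piLin ρ x + Finsupp.linearCombination k t x • piLin ρ y
        + c • (1 : Module.End k U) := by
  induction x using Finsupp.induction_linear with
  | zero => exact ⟨0, by simp⟩
  | add x₁ x₂ h₁ h₂ =>
    obtain ⟨c₁, h₁⟩ := h₁
    obtain ⟨c₂, h₂⟩ := h₂
    refine ⟨c₁ + c₂, ?_⟩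
    rw [map_add, map_add, add_mul, mul_add, add_add_add_comm, h₁, h₂]
    simp only [smul_add, add_smul]
    abel
  | single g a =>
    induction y using Finsupp.induction_linear with
    | zero => exact ⟨0, by simp⟩
    | add y₁ y₂ h₁ h₂ =>
      obtain ⟨c₁, h₁⟩ := h₁
      obtain ⟨c₂, h₂⟩ := h₂
      refine ⟨c₁ + c₂, ?_⟩
      rw [map_add, map_add, add_mul, mul_add, add_add_add_comm, h₁, h₂]
      simp only [smul_add, add_smul]
      abel
    | single h b =>
      refine ⟨a * b * (t (g * h) - t g * t h), ?_⟩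
      simp only [piLin_single, Finsupp.linearCombination_single, smul_mul_smul_comm, smul_eq_mul]
      rw [mul_comm b a, ← smul_add, quad_rel_base ρ d t ht g h]
      simp only [smul_add, smul_smul]
      congr 2
      · congr 1; ring
      · congr 1; ring

theorem twoDim_le [IsAlgClosed k] [FiniteDimensional k U] [Nontrivial U]
    (hirr : ∀ W : Submodule k U, (∀ g, ∀ x ∈ W, ρ g x ∈ W) → W = ⊥ ∨ W = ⊤)
    (ht : ∀ g, ρ g * ρ g - t g • ρ g + (d g : k) • (1 : Module.End k U) = 0) :
    Module.finrank k U ≤ 2 := by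
  classical
  by_contra hn
  rw [not_le] at hn
  let b := Module.finBasis k U
  let Φ := LinearMap.toMatrixAlgEquiv b
  let i0 : Fin (Module.finrank k U) := ⟨0, by omega⟩
  let i1 : Fin (Module.finrank k U) := ⟨1, by omega⟩
  let i2 : Fin (Module.finrank k U) := ⟨2, by omega⟩
  have h01 : i0 ≠ i1 := by simp [i0, i1, Fin.ext_iff]
  have h02 : i0 ≠ i2 := by simp [i0, i2, Fin.ext_iff]
  have h12 : i1 ≠ i2 := by simp [i1, i2, Fin.ext_iff]
  obtain ⟨x, hx⟩ := burnside ρ hirr (Φ.symm (Matrix.single i0 i1 1))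
  obtain ⟨y, hy⟩ := burnside ρ hirr (Φ.symm (Matrix.single i1 i2 1))
  obtain ⟨c, hc⟩ := quad_rel ρ d t ht x y
  have h := congrArg Φ hc
  simp only [hx, hy, map_add, map_mul, map_smul, map_one, AlgEquiv.apply_symm_apply] at h
  have h' := congrFun (congrFun h i0) i2
  simp [Matrix.single_mul_single_of_ne, h01.symm, h02, h12, h02.symm] at h'

theorem twoDim_charpoly [IsAlgClosed k] [FiniteDimensional k U] [Nontrivial U]
    (hirr : ∀ W : Submodule k U, (∀ g, ∀ x ∈ W, ρ g x ∈ W) → W = ⊥ ∨ W = ⊤)
    (ht : ∀ g, ρ g * ρ g - t g • ρ g + (d g : k) • (1 : Module.End k U) = 0)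
    (h2 : Module.finrank k U = 2) (g : G) :
    (ρ g).charpoly = X ^ 2 - C (t g) * X + C (d g : k) := by
  classical
  let b := Module.finBasisOfFinrankEq k U h2
  let Φ := LinearMap.toMatrixAlgEquiv b
  obtain ⟨y, hy⟩ := burnside ρ hirr (Φ.symm !![0, 1; 0, 0])
  obtain ⟨y', hy'⟩ := burnside ρ hirr (Φ.symm !![0, 0; 1, 0])
  obtain ⟨c, hc⟩ := quad_rel ρ d t ht y y'
  have h := congrArg Φ hc
  simp only [hy, hy', map_add, map_mul, map_smul, map_one, AlgEquiv.apply_symm_apply] at h
  have hτ : Finsupp.linearCombination k t y = 0 := by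
    have h' := congrFun (congrFun h 1) 0
    simpa [Matrix.mul_apply, Fin.sum_univ_two] using h'.symm
  obtain ⟨c', hc'⟩ := quad_rel ρ d t ht (Finsupp.single g 1) y
  have hg := congrArg Φ hc'
  simp only [hy, piLin_single, one_smul, map_add, map_mul, map_smul, map_one,
    AlgEquiv.apply_symm_apply, hτ, zero_smul, zero_add, Finsupp.linearCombination_single] at hg
  set M := Φ (ρ g) with hM
  have e00 := congrFun (congrFun hg 0) 0
  have e01 := congrFun (congrFun hg 0) 1
  simp [Matrix.mul_apply, Fin.sum_univ_two, Matrix.vecMul, dotProduct] at e00 e01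
  have hq := congrArg Φ (ht g)
  simp only [map_add, map_sub, map_mul, map_smul, map_one, map_zero, ← hM] at hq
  have q00 := congrFun (congrFun hq 0) 0
  simp [Matrix.mul_apply, Fin.sum_univ_two] at q00
  have hcp : (ρ g).charpoly = M.charpoly := (LinearMap.charpoly_toMatrix (ρ g) b).symm
  rw [hcp, Matrix.charpoly_fin_two, Matrix.trace_fin_two, Matrix.det_fin_two]
  have ht' : M 0 0 + M 1 1 = t g := by linear_combination e01
  have hd' : M 0 0 * M 1 1 - M 0 1 * M 1 0 = (d g : k) := by
    linear_combination (-1 : k) * q00 + (M 0 0) * ht'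
  rw [ht', hd']
end

/-- (D1) -/
theorem twoDim {k U G : Type*} [Field k] [IsAlgClosed k] [AddCommGroup U] [Module k U]
    [FiniteDimensional k U] [Nontrivial U] [Group G] (ρ : G →* Module.End k U) (d : G →* kˣ)
    (hirr : ∀ W : Submodule k U, (∀ g, ∀ x ∈ W, ρ g x ∈ W) → W = ⊥ ∨ W = ⊤)
    (hquad : ∀ g, ∃ t : k, ρ g * ρ g - t • ρ g + (d g : k) • (1 : Module.End k U) = 0) :
    Module.finrank k U ≤ 2 ∧ (Module.finrank k U = 2 → ∀ (g : G) (t : k),
      ρ g * ρ g - t • ρ g + (d g : k) • (1 : Module.End k U) = 0 →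
        (ρ g).charpoly = X ^ 2 - C t * X + C (d g : k)) := by
  classical
  choose t ht using hquad
  refine ⟨twoDim_le ρ d t hirr ht, fun h2 g t' ht' => ?_⟩
  have h := twoDim_charpoly ρ d (Function.update t g t') hirr (fun g' => by
    by_cases hg : g' = g
    · subst hg; simpa using ht'
    · simpa [Function.update_of_ne hg] using ht g') h2 g
  simpa using h

end Fermat.Agent.ES.D
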