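/-
ES (D6): the abstract theorem: a finite Galois module with Hecke operators satisfying the
Eichler-Shimura relation + a nonzero eigenfunctional  ==>  a 2-dimensional residual representation.
-/
import Fermat.Agent.ES.D.Defs
import Fermat.Agent.ES.D.Quadratic
import Fermat.Agent.ES.D.Cyclo

set_option autoImplicit false

namespace Fermat.Agent.ES.D

open Polynomial

section action

variable (p : ℕ) [NeZero p] {V : Type} [AddCommGroup V] (ρ : GQ →* Module.End ℤ V)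
  (K : Type) [Field K] [CharP K p]

/-- the mod `p` cyclotomic character with values in `K`. -/
noncomputable def cycK : GQ →* Kˣ :=
  (Units.map (ZMod.castHom (dvd_refl p) K).toMonoidHom).comp (cyc p)

theorem cycK_eq_one {σ : GQ} (h : cyc p σ = 1) : cycK p K σ = 1 := by
  simp [cycK, h]

theorem cycK_frobenius {ℓ : ℕ} (hℓ : ℓ.Prime) (hm : ¬ ℓ ∣ p)
    {A : ValuationSubring Qb} (hA : A.LiesOverPrime ℓ) {σ : GQ} (hσ : A.IsFrobeniusAt σ ℓ) :
    ((cycK p K σ : Kˣ) : K) = (ℓ : K) := by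
  simp [cycK, cyc_frobenius p hℓ hm hA hσ]

/-- the twisted contragredient action of `G_ℚ` on `K`-valued functions on `V`:
`(σ f)(x) = χ_p(σ) f(σ⁻¹ x)`. -/
noncomputable def act : GQ →* Module.End K (V → K) where
  toFun σ := ((cycK p K σ : Kˣ) : K) • LinearMap.funLeft K K (fun x => ρ σ⁻¹ x)
  map_one' := by
    ext f x
    simp [LinearMap.funLeft]
  map_mul' σ τ := by
    ext f x
    simp [LinearMap.funLeft, mul_assoc, mul_left_comm]

theorem act_apply (σ : GQ) (f : V → K) (x : V) :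
    act p ρ K σ f x = ((cycK p K σ : Kˣ) : K) * f (ρ σ⁻¹ x) := rfl

theorem act_eq_one {σ : GQ} (h1 : ρ σ = 1) (h2 : cyc p σ = 1) : act p ρ K σ = 1 := by
  have h3 : ρ σ⁻¹ = 1 := by
    have : ρ σ⁻¹ * ρ σ = 1 := by rw [← map_mul, inv_mul_cancel, map_one]
    rwa [h1, mul_one] at this
  ext f x
  rw [act_apply, cycK_eq_one p K h2, h3]
  simp

variable {K} (S : Finset ℕ) (T : ℕ → Module.End ℤ V) (lam : ℕ → K)

/-- the space of additive eigenfunctionals. -/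
def eigenSpace : Submodule K (V → K) where
  carrier := {f | (∀ x y, f (x + y) = f x + f y) ∧
    ∀ ℓ : ℕ, ℓ.Prime → ℓ ∉ S → ∀ x, f (T ℓ x) = lam ℓ * f x}
  add_mem' := by
    rintro f g ⟨hf1, hf2⟩ ⟨hg1, hg2⟩
    refine ⟨fun x y => ?_, fun ℓ h1 h2 x => ?_⟩
    · simp only [Pi.add_apply, hf1, hg1]; ring
    · simp only [Pi.add_apply, hf2 ℓ h1 h2, hg2 ℓ h1 h2]; ring
  zero_mem' := ⟨fun x y => by simp, fun ℓ _ _ x => by simp⟩
  smul_mem' := by
    rintro c f ⟨hf1, hf2⟩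
    refine ⟨fun x y => ?_, fun ℓ h1 h2 x => ?_⟩
    · simp only [Pi.smul_apply, hf1, smul_eq_mul]; ring
    · simp only [Pi.smul_apply, hf2 ℓ h1 h2, smul_eq_mul]; ring

variable {S T lam}

theorem act_mem_eigenSpace (hTρ : ∀ ℓ σ, Commute (T ℓ) (ρ σ)) (σ : GQ) {f : V → K}
    (hf : f ∈ eigenSpace S T lam) : act p ρ K σ f ∈ eigenSpace S T lam := by
  obtain ⟨hf1, hf2⟩ := hf
  refine ⟨fun x y => ?_, fun ℓ h1 h2 x => ?_⟩
  · simp only [act_apply, map_add, hf1]; ring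
  · simp only [act_apply]
    have : ρ σ⁻¹ (T ℓ x) = T ℓ (ρ σ⁻¹ x) := by
      have := congrArg (fun z => z x) (hTρ ℓ σ⁻¹).eq
      exact this.symm
    rw [this, hf2 ℓ h1 h2]; ring

/-- the Eichler-Shimura relation on eigenfunctionals. -/
theorem act_frobenius {ℓ : ℕ} (hℓ : ℓ.Prime) (hℓS : ℓ ∉ S) (hℓp : ¬ ℓ ∣ p)
    {A : ValuationSubring Qb} (hA : A.LiesOverPrime ℓ) {σ : GQ} (hσ : A.IsFrobeniusAt σ ℓ)
    (hES : ρ σ * ρ σ - T ℓ * ρ σ + (ℓ : Module.End ℤ V) = 0) {f : V → K}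
    (hf : f ∈ eigenSpace S T lam) :
    act p ρ K σ (act p ρ K σ f) - lam ℓ • act p ρ K σ f + (ℓ : K) • f = 0 := by
  obtain ⟨hf1, hf2⟩ := hf
  let F : V →+ K := AddMonoidHom.mk' f hf1
  have hF : ∀ x, F x = f x := fun _ => rfl
  funext x
  simp only [Pi.add_apply, Pi.sub_apply, Pi.smul_apply, act_apply, smul_eq_mul, Pi.zero_apply,
    cycK_frobenius p K hℓ hℓp hA hσ]
  set y := ρ σ⁻¹ (ρ σ⁻¹ x) with hy
  have hinv : ∀ z, ρ σ (ρ σ⁻¹ z) = z := by
    intro z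
    have : ρ σ * ρ σ⁻¹ = 1 := by rw [← map_mul, mul_inv_cancel, map_one]
    exact congrArg (fun w => w z) this
  have h1 : ρ σ y = ρ σ⁻¹ x := by rw [hy, hinv]
  have hvec : x - T ℓ (ρ σ⁻¹ x) + ℓ • y = 0 := by
    have := congrArg (fun w => w y) hES
    simpa only [LinearMap.add_apply, LinearMap.sub_apply, Module.End.mul_apply, h1, hinv,
      Module.End.natCast_apply, LinearMap.zero_apply] using this
  have h3 := congrArg F hvec
  rw [map_add, map_sub, map_nsmul, map_zero, hF, hF, hF, hf2 ℓ hℓ hℓS, nsmul_eq_mul] at h3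
  linear_combination (ℓ : K) * h3

end action

section linalg

variable {K M G : Type*} [Field K] [AddCommGroup M] [Module K M]

theorem exists_minimal_stable [FiniteDimensional K M] (a : G → Module.End K M)
    (W : Submodule K M) (hW : W ≠ ⊥) (hstab : ∀ g, ∀ x ∈ W, a g x ∈ W) :
    ∃ U : Submodule K M, U ≤ W ∧ U ≠ ⊥ ∧ (∀ g, ∀ x ∈ U, a g x ∈ U) ∧
      ∀ U' : Submodule K M, U' ≤ U → U' ≠ ⊥ → (∀ g, ∀ x ∈ U', a g x ∈ U') → U' = U := by
  classical
  let P : ℕ → Prop := fun n => ∃ U : Submodule K M, U ≤ W ∧ U ≠ ⊥ ∧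
    (∀ g, ∀ x ∈ U, a g x ∈ U) ∧ Module.finrank K U = n
  have hex : ∃ n, P n := ⟨_, W, le_rfl, hW, hstab, rfl⟩
  obtain ⟨U, h1, h2, h3, h4⟩ := Nat.find_spec hex
  refine ⟨U, h1, h2, h3, fun U' hU' hne hst => ?_⟩
  have h5 : Nat.find hex ≤ Module.finrank K U' :=
    Nat.find_min' hex ⟨U', hU'.trans h1, hne, hst, rfl⟩
  exact Submodule.eq_of_le_of_finrank_le hU' (h4.trans_le h5)

/-- restriction of a representation to a stable subspace. -/
def restrictRep [Monoid G] (a : G →* Module.End K M) (U : Submodule K M)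
    (h : ∀ g, ∀ x ∈ U, a g x ∈ U) : G →* Module.End K U where
  toFun g := (a g).restrict (h g)
  map_one' := by ext; simp
  map_mul' g g' := by ext; simp

theorem restrictRep_apply [Monoid G] (a : G →* Module.End K M) (U : Submodule K M)
    (h : ∀ g, ∀ x ∈ U, a g x ∈ U) (g : G) (x : U) :
    ((restrictRep a U h g x : U) : M) = a g x := rfl

theorem restrictRep_irreducible [Monoid G] [FiniteDimensional K M] (a : G →* Module.End K M)
    (U : Submodule K M) (h : ∀ g, ∀ x ∈ U, a g x ∈ U)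
    (hmin : ∀ U' : Submodule K M, U' ≤ U → U' ≠ ⊥ → (∀ g, ∀ x ∈ U', a g x ∈ U') → U' = U)
    (W : Submodule K U) (hW : ∀ g, ∀ x ∈ W, restrictRep a U h g x ∈ W) : W = ⊥ ∨ W = ⊤ := by
  by_cases hb : W = ⊥
  · exact Or.inl hb
  right
  have h1 : W.map U.subtype = U := by
    apply hmin
    · exact Submodule.map_subtype_le U W
    · intro h0
      apply hb
      rw [eq_bot_iff]
      intro x hx
      have : U.subtype x ∈ W.map U.subtype := ⟨x, hx, rfl⟩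
      rw [h0, Submodule.mem_bot] at this
      exact (Submodule.mem_bot K).mpr (Subtype.ext this)
    · rintro g _ ⟨x, hx, rfl⟩
      exact ⟨restrictRep a U h g x, hW g x hx, rfl⟩
  rw [eq_top_iff]
  rintro ⟨x, hx'⟩ -
  have hx := hx'
  rw [← h1] at hx
  obtain ⟨y, hy, hyx⟩ := hx
  have : y = ⟨x, hx'⟩ := Subtype.ext hyx
  rw [← this]; exact hy

/-- an endomorphism of a one-dimensional space is the scalar given by its determinant. -/
theorem eq_det_smul_of_finrank_eq_one (h1 : Module.finrank K M = 1) (f : Module.End K M) :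
    f = LinearMap.det f • (1 : Module.End K M) := by
  obtain ⟨v, hv, hspan⟩ := finrank_eq_one_iff'.mp h1
  obtain ⟨c, hc⟩ := hspan (f v)
  have hf : f = c • (1 : Module.End K M) := by
    ext w
    obtain ⟨b, rfl⟩ := hspan w
    rw [map_smul, ← hc, LinearMap.smul_apply, Module.End.one_apply, smul_comm]
  have hdet : LinearMap.det f = c := by
    rw [hf, LinearMap.det_smul, h1, pow_one, map_one, mul_one]
  rw [hdet]; exact hf

end linalg

section core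

variable (p : ℕ) [NeZero p] {V : Type} [AddCommGroup V] [Finite V] (ρ : GQ →* Module.End ℤ V)
  {K : Type} [Field K]

omit [Finite V] in
/-- a common level field. -/
theorem exists_common_level (hlevel : GaloisFactorsThroughFiniteLevel ρ) :
    ∃ L : IntermediateField ℚ Qb, FiniteDimensional ℚ L ∧
      ∀ σ : GQ, (∀ x ∈ L, σ x = x) → ρ σ = 1 ∧ cyc p σ = 1 := by
  obtain ⟨L1, hL1, h1⟩ := hlevel
  obtain ⟨L2, hL2, h2⟩ := cyc_finiteLevel p
  refine ⟨L1 ⊔ L2, IntermediateField.finiteDimensional_sup L1 L2, fun σ hσ => ⟨?_, ?_⟩⟩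
  · exact h1 σ fun x hx => hσ x ((le_sup_left : L1 ≤ L1 ⊔ L2) hx)
  · exact h2 σ fun x hx => hσ x ((le_sup_right : L2 ≤ L1 ⊔ L2) hx)

/-- a two-dimensional representation from two characters. -/
noncomputable def diagRep (ψ ψ' : GQ →* K) : GQ →* Module.End K (Fin 2 → K) where
  toFun σ := Matrix.toLin' (Matrix.diagonal ![ψ σ, ψ' σ])
  map_one' := by
    have : (![ψ 1, ψ' 1] : Fin 2 → K) = fun _ => 1 := by
      funext i; fin_cases i <;> simp
    rw [this, Matrix.diagonal_one, Matrix.toLin'_one]; rfl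
  map_mul' σ τ := by
    have : (![ψ (σ * τ), ψ' (σ * τ)] : Fin 2 → K)
        = fun i => (![ψ σ, ψ' σ] : Fin 2 → K) i * (![ψ τ, ψ' τ] : Fin 2 → K) i := by
      funext i; fin_cases i <;> simp
    rw [this, ← Matrix.diagonal_mul_diagonal, Matrix.toLin'_mul]; rfl

theorem diagRep_charpoly (ψ ψ' : GQ →* K) (σ : GQ) :
    (diagRep ψ ψ' σ).charpoly = X ^ 2 - C (ψ σ + ψ' σ) * X + C (ψ σ * ψ' σ) := by
  have h1 : diagRep ψ ψ' σ = Matrix.toLin' (Matrix.diagonal ![ψ σ, ψ' σ]) := rfl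
  rw [h1, ← LinearMap.charpoly_toMatrix _ (Pi.basisFun K (Fin 2)),
    LinearMap.toMatrix_eq_toMatrix', LinearMap.toMatrix'_toLin', Matrix.charpoly_fin_two,
    Matrix.trace_fin_two, Matrix.det_fin_two]
  simp

theorem diagRep_eq_one (ψ ψ' : GQ →* K) {σ : GQ} (h : ψ σ = 1) (h' : ψ' σ = 1) :
    diagRep ψ ψ' σ = 1 := by
  have h1 : diagRep ψ ψ' σ = Matrix.toLin' (Matrix.diagonal ![ψ σ, ψ' σ]) := rfl
  have : (![ψ σ, ψ' σ] : Fin 2 → K) = fun _ => 1 := by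
    funext i; fin_cases i <;> simp [h, h']
  rw [h1, this, Matrix.diagonal_one, Matrix.toLin'_one]; rfl

variable [CharP K p] [IsAlgClosed K]

theorem exists_rep_core (hFD : FrobPowerDensity) (S : Finset ℕ)
    (hpS : ∀ ℓ : ℕ, ℓ.Prime → ℓ ∉ S → ¬ ℓ ∣ p)
    (hlevel : GaloisFactorsThroughFiniteLevel ρ) (T : ℕ → Module.End ℤ V)
    (hTρ : ∀ ℓ σ, Commute (T ℓ) (ρ σ))
    (hES : ∀ ℓ : ℕ, ℓ.Prime → ℓ ∉ S → ∀ A : ValuationSubring Qb, A.LiesOverPrime ℓ →
      ∀ σ : GQ, A.IsFrobeniusAt σ ℓ → ρ σ * ρ σ - T ℓ * ρ σ + (ℓ : Module.End ℤ V) = 0)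
    (lam : ℕ → K) (f₀ : V →+ K) (hf₀ : f₀ ≠ 0)
    (hf₀T : ∀ ℓ : ℕ, ℓ.Prime → ℓ ∉ S → ∀ x, f₀ (T ℓ x) = lam ℓ * f₀ x) :
    ∃ (Vr : Type) (_ : AddCommGroup Vr) (_ : Module K Vr) (_ : Module.Finite K Vr)
      (r : GQ →* Module.End K Vr), Module.finrank K Vr = 2 ∧ (∀ σ : GQ, ρ σ = 1 → cyc p σ = 1 → r σ = 1) ∧
      (∀ ℓ : ℕ, ℓ.Prime → ℓ ∉ S → ∀ A : ValuationSubring Qb, A.LiesOverPrime ℓ →
        ∀ σ : GQ, A.IsFrobeniusAt σ ℓ →
          LinearMap.charpoly (r σ) = X ^ 2 - C (lam ℓ) * X + C ((ℓ : K))) := by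
  classical
  -- the eigenspace is nonzero
  have hW : eigenSpace S T lam ≠ ⊥ := by
    intro h0
    have hmem : (f₀ : V → K) ∈ eigenSpace S T lam := ⟨fun x y => map_add f₀ x y, hf₀T⟩
    rw [h0, Submodule.mem_bot] at hmem
    exact hf₀ (DFunLike.coe_injective hmem)
  obtain ⟨U, hUW, hU0, hUst, hUmin⟩ := exists_minimal_stable (fun σ => act p ρ K σ)
    (eigenSpace S T lam) hW (fun σ f hf => act_mem_eigenSpace p ρ hTρ σ hf)
  let r : GQ →* Module.End K U := restrictRep (act p ρ K) U hUst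
  have hnt : Nontrivial U := (Submodule.nontrivial_iff_ne_bot).mpr hU0
  have hirr : ∀ W : Submodule K U, (∀ g, ∀ x ∈ W, r g x ∈ W) → W = ⊥ ∨ W = ⊤ :=
    fun W hW => restrictRep_irreducible (act p ρ K) U hUst hUmin W hW
  have htriv : ∀ σ : GQ, ρ σ = 1 → cyc p σ = 1 → r σ = 1 := by
    intro σ h1 h2
    ext x
    rw [restrictRep_apply, act_eq_one p ρ K h1 h2]
    rfl
  -- the Frobenius relation
  have hfrob : ∀ ℓ : ℕ, ℓ.Prime → ℓ ∉ S → ∀ A : ValuationSubring Qb, A.LiesOverPrime ℓ →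
      ∀ σ : GQ, A.IsFrobeniusAt σ ℓ →
        r σ * r σ - lam ℓ • r σ + (ℓ : K) • (1 : Module.End K U) = 0 := by
    intro ℓ hℓ hℓS A hA σ hσ
    ext x
    have := act_frobenius p ρ hℓ hℓS (hpS ℓ hℓ hℓS) hA hσ (hES ℓ hℓ hℓS A hA σ hσ) (hUW x.2)
    exact congrFun this _
  -- the quadratic relation for all elements
  obtain ⟨L, hL, hLtriv⟩ := exists_common_level p ρ hlevel
  have hquad : ∀ σ : GQ, ∃ t : K,
      r σ * r σ - t • r σ + ((cycK p K σ : Kˣ) : K) • (1 : Module.End K U) = 0 := by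
    intro σ
    obtain ⟨ℓ, A, φ, j, hℓ, hℓS, hA, hφ, hσ⟩ := hFD L hL σ S
    have hτ : ∀ x ∈ L, (σ⁻¹ * φ ^ j) x = x := by
      intro x hx
      rw [AlgEquiv.mul_apply, ← hσ x hx]
      exact σ.symm_apply_apply x
    obtain ⟨h1, h2⟩ := hLtriv _ hτ
    have hr : r σ = r φ ^ j := by
      have : r (σ⁻¹ * φ ^ j) = 1 := htriv _ h1 h2
      rw [← map_pow, ← mul_one (r σ), ← this, ← map_mul, mul_inv_cancel_left]
    have hc : cycK p K σ = cycK p K φ ^ j := by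
      have : cycK p K (σ⁻¹ * φ ^ j) = 1 := cycK_eq_one p K h2
      rw [← map_pow, ← mul_one (cycK p K σ), ← this, ← map_mul, mul_inv_cancel_left]
    obtain ⟨s, hs⟩ := quad_pow (k := K) (R := Module.End K U) (hfrob ℓ hℓ hℓS A hA φ hφ) j
    refine ⟨s, ?_⟩
    rw [hr, hc, Units.val_pow_eq_pow_val, cycK_frobenius p K hℓ (hpS ℓ hℓ hℓS) hA hφ]
    exact hs
  obtain ⟨hle, h2dim⟩ := twoDim r (cycK p K) hirr hquad
  have hpos : 0 < Module.finrank K U := Module.finrank_pos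
  rcases (by omega : Module.finrank K U = 2 ∨ Module.finrank K U = 1) with h2 | h1
  · refine ⟨U, inferInstance, inferInstance, inferInstance, r, h2, htriv, ?_⟩
    intro ℓ hℓ hℓS A hA σ hσ
    have h3 := h2dim h2 σ (lam ℓ) (by
      rw [cycK_frobenius p K hℓ (hpS ℓ hℓ hℓS) hA hσ]; exact hfrob ℓ hℓ hℓS A hA σ hσ)
    rw [h3, cycK_frobenius p K hℓ (hpS ℓ hℓ hℓS) hA hσ]
  · -- the one-dimensional case
    let ψ : GQ →* K := LinearMap.det.comp r
    have hψ : ∀ σ, r σ = ψ σ • (1 : Module.End K U) := fun σ => eq_det_smul_of_finrank_eq_one h1 _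
    let ψ' : GQ →* K :=
      { toFun := fun σ => ((cycK p K σ : Kˣ) : K) * ψ σ⁻¹
        map_one' := by simp
        map_mul' := fun σ τ => by
          simp only [map_mul, mul_inv_rev, Units.val_mul]; ring }
    refine ⟨Fin 2 → K, inferInstance, inferInstance, inferInstance, diagRep ψ ψ', by simp, ?_, ?_⟩
    · intro σ hσ1 hσ2
      have h3 : ψ σ = 1 := by
        change LinearMap.det (r σ) = 1
        rw [htriv σ hσ1 hσ2, map_one]
      have h4 : ψ σ⁻¹ = 1 := by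
        have : ψ σ⁻¹ * ψ σ = 1 := by rw [← map_mul, inv_mul_cancel, map_one]
        rwa [h3, mul_one] at this
      apply diagRep_eq_one _ _ h3
      change ((cycK p K σ : Kˣ) : K) * ψ σ⁻¹ = 1
      rw [h4, cycK_eq_one p K hσ2]; simp
    · intro ℓ hℓ hℓS A hA σ hσ
      rw [diagRep_charpoly]
      have h3 := hfrob ℓ hℓ hℓS A hA σ hσ
      rw [hψ σ] at h3
      have h4 : ψ σ * ψ σ - lam ℓ * ψ σ + (ℓ : K) = 0 := by
        obtain ⟨x, hx⟩ := exists_ne (0 : U)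
        have h5 : (ψ σ * ψ σ - lam ℓ * ψ σ + (ℓ : K)) • x = 0 := by
          have := congrArg (fun z => z x) h3
          simp only [LinearMap.add_apply, LinearMap.sub_apply, Module.End.mul_apply,
            LinearMap.smul_apply, Module.End.one_apply, LinearMap.zero_apply, smul_smul] at this
          rw [add_smul, sub_smul]; exact this
        exact (smul_eq_zero.mp h5).resolve_right hx
      have h6 : ψ σ⁻¹ * ψ σ = 1 := by rw [← map_mul, inv_mul_cancel, map_one]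
      have h7 : ψ' σ = (ℓ : K) * ψ σ⁻¹ := by
        change ((cycK p K σ : Kˣ) : K) * ψ σ⁻¹ = _
        rw [cycK_frobenius p K hℓ (hpS ℓ hℓ hℓS) hA hσ]
      have h8 : ψ σ + ψ' σ = lam ℓ := by
        rw [h7]
        linear_combination (ψ σ⁻¹) * h4 + (lam ℓ - ψ σ) * h6
      have h9 : ψ σ * ψ' σ = (ℓ : K) := by
        rw [h7]
        linear_combination (ℓ : K) * h6
      rw [h8, h9]

end core

theorem exists_residual (hFD : FrobPowerDensity) {p : ℕ} (hp : p.Prime) (S : Finset ℕ)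
    (hpS : p ∈ S) {V : Type} [AddCommGroup V] [Finite V] (ρ : GQ →* Module.End ℤ V)
    (hlevel : GaloisFactorsThroughFiniteLevel ρ) (T : ℕ → Module.End ℤ V)
    (hTρ : ∀ ℓ σ, Commute (T ℓ) (ρ σ))
    (hunram : ∀ ℓ : ℕ, ℓ.Prime → ℓ ∉ S → ∀ A : ValuationSubring Qb, A.LiesOverPrime ℓ →
      ∀ σ ∈ A.inertiaSubgroupIn ℚ, ρ σ = 1)
    (hES : ∀ ℓ : ℕ, ℓ.Prime → ℓ ∉ S → ∀ A : ValuationSubring Qb, A.LiesOverPrime ℓ →
      ∀ σ : GQ, A.IsFrobeniusAt σ ℓ → ρ σ * ρ σ - T ℓ * ρ σ + (ℓ : Module.End ℤ V) = 0)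
    {K : Type} [Field K] [CharP K p] [IsAlgClosed K] (lam : ℕ → K) (f₀ : V →+ K) (hf₀ : f₀ ≠ 0)
    (hf₀T : ∀ ℓ : ℕ, ℓ.Prime → ℓ ∉ S → ∀ x, f₀ (T ℓ x) = lam ℓ * f₀ x) :
    ∃ r : ResidualGaloisRep K,
      (∀ ℓ : ℕ, ℓ.Prime → ℓ ∉ S → ∀ A : ValuationSubring Qb, A.LiesOverPrime ℓ →
        ∀ σ : GQ, A.IsFrobeniusAt σ ℓ →
          LinearMap.charpoly (r.ρ σ) = X ^ 2 - C (lam ℓ) * X + C ((ℓ : K))) ∧
      ∀ ℓ : ℕ, ℓ.Prime → ℓ ∉ S → r.IsUnramifiedAt ℓ := by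
  have : NeZero p := ⟨hp.ne_zero⟩
  have hpS' : ∀ ℓ : ℕ, ℓ.Prime → ℓ ∉ S → ¬ ℓ ∣ p := by
    intro ℓ hℓ hℓS hdvd
    rw [(Nat.prime_dvd_prime_iff_eq hℓ hp).mp hdvd] at hℓS
    exact hℓS hpS
  obtain ⟨Vr, i1, i2, i3, r, h2, htriv, hchar⟩ :=
    exists_rep_core p ρ hFD S hpS' hlevel T hTρ hES lam f₀ hf₀ hf₀T
  obtain ⟨L, hL, hLtriv⟩ := exists_common_level p ρ hlevel
  refine ⟨{ V := Vr, finrank_eq := h2, ρ := r, factorsThroughFiniteLevel :=
    ⟨L, hL, fun σ hσ => htriv σ (hLtriv σ hσ).1 (hLtriv σ hσ).2⟩ }, hchar, ?_⟩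
  intro ℓ hℓ hℓS A hA σ hσ
  exact htriv σ (hunram ℓ hℓ hℓS A hA σ hσ) (cyc_inertia p hℓ (hpS' ℓ hℓ hℓS) hA hσ)

end Fermat.Agent.ES.D
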