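/-
ES (D4): an eigensystem which factors through the (finite, commutative) ring generated by
commuting operators on a finite abelian group `V` occurs in `Hom(V, K)`  (Nakayama).
-/
import Mathlib

set_option autoImplicit false

namespace Fermat.Agent.ES.D

/-- Nakayama: a character of a finite commutative ring acting faithfully on a finite module
occurs in the dual. -/
theorem exists_eigenfunctional_of_faithful {R V K : Type*} [CommRing R] [Finite R]
    [AddCommGroup V] [Module R V] [Module.Finite R V] [FaithfulSMul R V] [Field K]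
    (χ : R →+* K) : ∃ f : V →+ K, f ≠ 0 ∧ ∀ (r : R) (x : V), f (r • x) = χ r * f x := by
  classical
  have hprime : (RingHom.ker χ).IsPrime := RingHom.ker_isPrime χ
  have hmax : (RingHom.ker χ).IsMaximal := Ideal.IsPrime.isMaximal' hprime
  letI : Field (R ⧸ RingHom.ker χ) := Ideal.Quotient.field _
  have hne : (RingHom.ker χ • ⊤ : Submodule R V) ≠ ⊤ := by
    intro htop
    obtain ⟨r, hr1, hr0⟩ := Submodule.exists_sub_one_mem_and_smul_eq_zero_of_fg_of_le_smul
      (RingHom.ker χ) (⊤ : Submodule R V) Module.Finite.fg_top (by rw [htop])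
    have hr : r = 0 := by
      apply FaithfulSMul.eq_of_smul_eq_smul (α := V)
      intro v
      rw [hr0 v trivial, zero_smul]
    rw [hr, zero_sub, RingHom.mem_ker, map_neg, map_one, neg_eq_zero] at hr1
    exact one_ne_zero hr1
  have hnt : Nontrivial (V ⧸ (RingHom.ker χ • ⊤ : Submodule R V)) :=
    Submodule.Quotient.nontrivial_iff.mpr hne
  obtain ⟨xb, hxb⟩ := exists_ne (0 : V ⧸ (RingHom.ker χ • ⊤ : Submodule R V))
  have : ¬ ∀ φ : Module.Dual (R ⧸ RingHom.ker χ) (V ⧸ (RingHom.ker χ • ⊤ : Submodule R V)),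
      φ xb = 0 := fun h => hxb ((Module.forall_dual_apply_eq_zero_iff _ xb).mp h)
  push_neg at this
  obtain ⟨φ, hφ⟩ := this
  obtain ⟨x, rfl⟩ := Submodule.Quotient.mk_surjective _ xb
  refine ⟨(RingHom.kerLift χ).toAddMonoidHom.comp (φ.toAddMonoidHom.comp
    (Submodule.mkQ (RingHom.ker χ • ⊤ : Submodule R V)).toAddMonoidHom), ?_, ?_⟩
  · intro h0
    have := DFunLike.congr_fun h0 x
    simp only [AddMonoidHom.coe_comp, Function.comp_apply, AddMonoidHom.zero_apply] at this
    exact hφ ((map_eq_zero_iff _ (RingHom.kerLift_injective χ)).mp this)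
  · intro r y
    simp only [AddMonoidHom.coe_comp, Function.comp_apply]
    have h1 : (Submodule.mkQ (RingHom.ker χ • ⊤ : Submodule R V)) (r • y)
        = (Ideal.Quotient.mk (RingHom.ker χ) r) •
          (Submodule.mkQ (RingHom.ker χ • ⊤ : Submodule R V)) y := rfl
    have h2 : φ ((Ideal.Quotient.mk (RingHom.ker χ) r) •
          (Submodule.mkQ (RingHom.ker χ • ⊤ : Submodule R V)) y)
        = (Ideal.Quotient.mk (RingHom.ker χ) r) *
          φ ((Submodule.mkQ (RingHom.ker χ • ⊤ : Submodule R V)) y) := by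
      rw [map_smul, smul_eq_mul]
    change (RingHom.kerLift χ) (φ ((Submodule.mkQ _) (r • y))) = _
    rw [h1, h2, map_mul]
    rfl

open scoped IsMulCommutative in
theorem exists_eigenfunctional {V ι K : Type*} [AddCommGroup V] [Finite V] [Field K]
    (T : ι → Module.End ℤ V) (hT : ∀ i j, Commute (T i) (T j)) (lam : ι → K)
    (h : ∀ P : FreeAlgebra ℤ ι, FreeAlgebra.lift ℤ T P = 0 → FreeAlgebra.lift ℤ lam P = 0) :
    ∃ f : V →+ K, f ≠ 0 ∧ ∀ i x, f (T i x) = lam i * f x := by
  classical
  have hcomm : IsMulCommutative (FreeAlgebra.lift ℤ T).range := by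
    rw [← Algebra.adjoin_range_eq_range_freeAlgebra_lift]
    apply Algebra.isMulCommutative_adjoin
    rintro _ ⟨i, rfl⟩ _ ⟨j, rfl⟩
    exact hT i j
  have hfinEnd : Finite (Module.End ℤ V) := Finite.of_injective (fun f => (f : V → V))
    DFunLike.coe_injective
  have hfin : Finite (FreeAlgebra.lift ℤ T).range := Subtype.finite
  have hfaith : FaithfulSMul (FreeAlgebra.lift ℤ T).range V := ⟨fun {a b} hab => by
    apply Subtype.ext
    ext v
    exact hab v⟩
  let θ : FreeAlgebra ℤ ι →+* (FreeAlgebra.lift ℤ T).range :=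
    (FreeAlgebra.lift ℤ T).rangeRestrict.toRingHom
  have hθ : Function.Surjective θ := (FreeAlgebra.lift ℤ T).rangeRestrict_surjective
  let χ : (FreeAlgebra.lift ℤ T).range →+* K :=
    RingHom.liftOfSurjective θ hθ ⟨(FreeAlgebra.lift ℤ lam).toRingHom, by
      intro P hP
      rw [RingHom.mem_ker] at hP ⊢
      exact h P (congrArg Subtype.val hP)⟩
  have hχ : ∀ P, χ (θ P) = FreeAlgebra.lift ℤ lam P := fun P =>
    RingHom.liftOfRightInverse_comp_apply θ _ _ _ P
  obtain ⟨f, hf0, hf⟩ := exists_eigenfunctional_of_faithful (V := V) χ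
  refine ⟨f, hf0, fun i x => ?_⟩
  have h1 := hf (θ (FreeAlgebra.ι ℤ i)) x
  rw [hχ, FreeAlgebra.lift_ι_apply] at h1
  rw [← h1]
  congr 1
  change T i x = (FreeAlgebra.lift ℤ T (FreeAlgebra.ι ℤ i)) x
  rw [FreeAlgebra.lift_ι_apply]

end Fermat.Agent.ES.D
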