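/-
ES (D5): a normalized eigenform is an eigenvector of the Prelude Hecke operators, its eigenvalues
are algebraic integers, and the `supp` field of an `ESGroup` gives the mod `p` eigensystem.
-/
import Fermat.Agent.ES.D.Defs
import Fermat.Agent.S49.QCoeff
import Fermat.Agent.S22

set_option autoImplicit false

namespace Fermat.Agent.ES.D

open ModularFormClass CongruenceSubgroup

/-- the arithmetic of the Hecke relations. -/
theorem hecke_arith {N : ℕ} (a : ℕ → ℂ) (h0 : a 0 = 0)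
    (hmul : ∀ m n : ℕ, m.Coprime n → a (m * n) = a m * a n)
    (hrec : ∀ p r : ℕ, p.Prime → ¬ p ∣ N → a (p ^ (r + 2)) = a p * a (p ^ (r + 1)) - p * a (p ^ r))
    {ℓ : ℕ} (hℓ : ℓ.Prime) (hℓN : ¬ ℓ ∣ N) (n : ℕ) :
    a (n * ℓ) + (if ℓ ∣ n then (ℓ : ℂ) * a (n / ℓ) else 0) = a ℓ * a n := by
  rcases Nat.eq_zero_or_pos n with rfl | hn
  · simp [h0]
  obtain ⟨r, m, hm, rfl⟩ := Nat.exists_eq_pow_mul_and_not_dvd hn.ne' ℓ hℓ.ne_one
  have hcop : ∀ s : ℕ, (ℓ ^ s).Coprime m := fun s =>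
    Nat.Coprime.pow_left s ((Nat.Prime.coprime_iff_not_dvd hℓ).mpr hm)
  cases r with
  | zero =>
    have h1 : ¬ ℓ ∣ ℓ ^ 0 * m := by simpa using hm
    rw [if_neg h1, add_zero, pow_zero, one_mul, mul_comm m ℓ,
      hmul ℓ m ((Nat.Prime.coprime_iff_not_dvd hℓ).mpr hm)]
  | succ s =>
    have h1 : ℓ ∣ ℓ ^ (s + 1) * m := Dvd.dvd.mul_right (dvd_pow_self ℓ (Nat.succ_ne_zero s)) m
    have h2 : ℓ ^ (s + 1) * m * ℓ = ℓ ^ (s + 2) * m := by ring
    have h3 : ℓ ^ (s + 1) * m / ℓ = ℓ ^ s * m := by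
      rw [pow_succ, mul_assoc, mul_comm ℓ m, ← mul_assoc]
      exact Nat.mul_div_cancel _ hℓ.pos
    rw [if_pos h1, h2, h3, hmul _ _ (hcop _), hmul _ _ (hcop _), hmul _ _ (hcop _), hrec ℓ s hℓ hℓN]
    ring

/-- an eigenvalue of an integral operator is integral. -/
theorem isIntegral_of_eigen {M : Type*} [AddCommGroup M] [Module ℂ M] (Q : Module.End ℂ M)
    (hQ : IsIntegral ℤ Q) {v : M} (hv : v ≠ 0) {c : ℂ} (h : Q v = c • v) : IsIntegral ℤ c := by
  obtain ⟨P, hmonic, hP⟩ := hQ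
  refine ⟨P, hmonic, ?_⟩
  have hpow : ∀ n : ℕ, (Q ^ n) v = c ^ n • v := by
    intro n
    induction n with
    | zero => simp
    | succ n ih => rw [pow_succ, Module.End.mul_apply, h, map_smul, ih, smul_smul, pow_succ, mul_comm]
  have key : (Polynomial.eval₂ (algebraMap ℤ (Module.End ℂ M)) Q P) v
      = (Polynomial.eval₂ (algebraMap ℤ ℂ) c P) • v := by
    rw [Polynomial.eval₂_eq_sum_range, Polynomial.eval₂_eq_sum_range, LinearMap.sum_apply,
      Finset.sum_smul]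
    refine Finset.sum_congr rfl fun i _ => ?_
    rw [Module.End.mul_apply, hpow, mul_smul]
    simp only [eq_intCast, Module.End.intCast_apply]
    rw [Int.cast_smul_eq_zsmul]
  rw [hP, LinearMap.zero_apply] at key
  exact (smul_eq_zero.mp key.symm).resolve_right hv

variable {N : ℕ} [NeZero N] {g : CuspForm (Gamma0 N) 2} {p : ℕ}

theorem heckeS2_eigen (hg : g.IsNormalizedEigenform) (ℓ : GoodPrime N) :
    heckeS2 N ℓ g = qCoeff g ℓ.1 • g := by
  rw [← sub_eq_zero]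
  apply S49.eq_zero_of_qCoeff
  intro n
  have h1 : heckeS2 N ℓ g - qCoeff g ℓ.1 • g = heckeS2 N ℓ g + (-(qCoeff g ℓ.1)) • g := by
    rw [neg_smul, sub_eq_add_neg]
  rw [h1, S49.qCoeff_add, S49.qCoeff_smul, heckeS2, S49.qCoeff_heckeTLin]
  have h2 := hecke_arith (N := N) (fun n => qCoeff g n) (S49.qCoeff_index_zero g)
    hg.qCoeff_mul_of_coprime hg.qCoeff_prime_pow_of_not_dvd ℓ.2.1 ℓ.2.2 n
  have h3 : ((ℓ.1 : ℂ)) ^ ((2 : ℤ) - 1) = (ℓ.1 : ℂ) := by norm_num
  rw [h3, h2]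
  ring

omit [NeZero N] in
theorem ne_zero_of_normalized (hg : g.IsNormalizedEigenform) : g ≠ 0 := by
  rintro rfl
  have h1 := hg.qCoeff_one
  have h2 : qCoeff (⇑(0 : CuspForm (Gamma0 N) 2)) 1 = 0 := by
    have := S49.qCoeff_smul (0 : ℂ) (0 : CuspForm (Gamma0 N) 2) 1
    simpa using this
  rw [h2] at h1
  exact zero_ne_one h1

theorem isIntegral_heckeS2 (ℓ : GoodPrime N) : IsIntegral ℤ (heckeS2 N ℓ) := by
  have hfin : Module.Finite ℤ (CuspForm.heckeAlgebra N 2 (∅ : Set ℕ)) := S22.result N 2 ∅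
  have h1 : IsIntegral ℤ (CuspForm.heckeAlgebra.T (N := N) (k := 2) (S := (∅ : Set ℕ))
      ℓ.2.1 ℓ.2.2 (Set.notMem_empty _)) := Algebra.IsIntegral.isIntegral _
  exact h1.map (CuspForm.heckeAlgebra N 2 (∅ : Set ℕ)).val

theorem isIntegral_qCoeff (hg : g.IsNormalizedEigenform) (ℓ : GoodPrime N) :
    IsIntegral ℤ (qCoeff g ℓ.1) :=
  isIntegral_of_eigen _ (isIntegral_heckeS2 ℓ) (ne_zero_of_normalized hg) (heckeS2_eigen hg ℓ)

/-- the eigenvalue `a_ℓ(g)` as an algebraic integer. -/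
noncomputable def eigenvalue (hg : g.IsNormalizedEigenform) (ℓ : GoodPrime N) :
    integralClosure ℤ ℂ :=
  ⟨qCoeff g ℓ.1, isIntegral_qCoeff hg ℓ⟩

theorem lift_heckeS2_apply (hg : g.IsNormalizedEigenform) (P : FreeAlgebra ℤ (GoodPrime N)) :
    FreeAlgebra.lift ℤ (heckeS2 N) P g
      = ((FreeAlgebra.lift ℤ (eigenvalue hg) P : integralClosure ℤ ℂ) : ℂ) • g := by
  induction P using FreeAlgebra.induction with
  | grade0 r =>
    simp only [eq_intCast, map_intCast, Module.End.intCast_apply, SubringClass.coe_intCast]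
    rw [Int.cast_smul_eq_zsmul]
  | grade1 x =>
    rw [FreeAlgebra.lift_ι_apply, FreeAlgebra.lift_ι_apply]
    exact heckeS2_eigen hg x
  | mul a b ha hb =>
    rw [map_mul, map_mul, Module.End.mul_apply, hb, map_smul, ha, smul_smul, mul_comm]
    rfl
  | add a b ha hb =>
    rw [map_add, map_add, LinearMap.add_apply, ha, hb, ← add_smul]
    rfl

theorem supp_eigen (M : ESModule N p) (hg : g.IsNormalizedEigenform) (hp : 0 < p)
    {K : Type*} [Field K] [CharP K p] (φ : integralClosure ℤ ℂ →+* K)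
    (P : FreeAlgebra ℤ (GoodPrime N)) (hP : FreeAlgebra.lift ℤ M.T P = 0) :
    FreeAlgebra.lift ℤ (fun ℓ => φ (eigenvalue hg ℓ)) P = 0 := by
  obtain ⟨Q, hQ, hPQ⟩ := M.supp P hP
  have hp0 : (p : ℂ) ≠ 0 := Nat.cast_ne_zero.mpr hp.ne'
  set e : integralClosure ℤ ℂ := FreeAlgebra.lift ℤ (eigenvalue hg) P with he
  have h1 : Q g = ((e : ℂ) / p) • g := by
    have h2 := lift_heckeS2_apply hg P
    rw [hPQ, ← he] at h2
    have h3 : ((p : ℤ) • Q) g = (p : ℂ) • Q g := by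
      rw [LinearMap.smul_apply]
      simp [← Nat.cast_smul_eq_nsmul ℂ]
    rw [h3] at h2
    rw [div_eq_inv_mul, mul_smul, ← h2, smul_smul, inv_mul_cancel₀ hp0, one_smul]
  have hc : IsIntegral ℤ ((e : ℂ) / p) := isIntegral_of_eigen Q hQ (ne_zero_of_normalized hg) h1
  have h4 : e = (p : integralClosure ℤ ℂ) * ⟨(e : ℂ) / p, hc⟩ := by
    apply Subtype.ext
    simp only [MulMemClass.coe_mul, SubringClass.coe_natCast]
    field_simp
  have h5 : FreeAlgebra.lift ℤ (fun ℓ => φ (eigenvalue hg ℓ)) P = φ e := by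
    have : FreeAlgebra.lift ℤ (fun ℓ => φ (eigenvalue hg ℓ))
        = (φ.toIntAlgHom).comp (FreeAlgebra.lift ℤ (eigenvalue hg)) := by
      apply FreeAlgebra.hom_ext
      funext x
      simp
    rw [this, he]
    rfl
  rw [h5, h4, map_mul, map_natCast, CharP.cast_eq_zero, zero_mul]

end Fermat.Agent.ES.D
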