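/-
ES (D7a): API of an `ESModule`; the `m`-torsion of an `ESGroup` is an `ESModule`.
-/
import Fermat.Agent.ES.D.Defs

set_option autoImplicit false

namespace Fermat.Agent.ES.D

section res

variable {Pt : Type*} [AddCommGroup Pt] (m : ℕ)

/-- the `m`-torsion subgroup. -/
abbrev tors (Pt : Type*) [AddCommGroup Pt] (m : ℕ) : Submodule ℤ Pt :=
  Submodule.torsionBy ℤ Pt (m : ℤ)

theorem mem_tors {x : Pt} : x ∈ tors Pt m ↔ m • x = 0 := by
  rw [Submodule.mem_torsionBy_iff, natCast_zsmul]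

theorem map_mem_tors (f : Module.End ℤ Pt) {x : Pt} (hx : x ∈ tors Pt m) : f x ∈ tors Pt m := by
  rw [mem_tors] at hx ⊢
  rw [← map_nsmul, hx, map_zero]

/-- restriction of endomorphisms to the torsion subgroup. -/
def resEnd : Module.End ℤ Pt →+* Module.End ℤ (tors Pt m) where
  toFun f := f.restrict (fun _ hx => map_mem_tors m f hx)
  map_one' := by ext; rfl
  map_mul' f g := by ext; rfl
  map_zero' := by ext; rfl
  map_add' f g := by ext; rfl

theorem resEnd_apply (f : Module.End ℤ Pt) (x : tors Pt m) :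
    ((resEnd m f x : tors Pt m) : Pt) = f x := rfl

theorem lift_resEnd {ι : Type*} (T : ι → Module.End ℤ Pt) (P : FreeAlgebra ℤ ι) :
    FreeAlgebra.lift ℤ (fun i => resEnd m (T i)) P = resEnd m (FreeAlgebra.lift ℤ T P) := by
  have : FreeAlgebra.lift ℤ (fun i => resEnd m (T i))
      = ((resEnd m).toIntAlgHom).comp (FreeAlgebra.lift ℤ T) := by
    apply FreeAlgebra.hom_ext
    funext x
    simp
  rw [this]
  rfl

end res

variable {N : ℕ} [NeZero N]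

/-- the `m`-torsion of an `ESGroup` is an `ESModule`. -/
noncomputable def ESGroup.toModule (E : ESGroup N) (m : ℕ) (hm : 0 < m) : ESModule N m where
  V := tors E.Pt m
  fin := by
    have h := E.finite_torsion m hm
    have : (tors E.Pt m : Set E.Pt) = {x : E.Pt | m • x = 0} := by
      ext x; exact mem_tors m
    rw [← this] at h
    exact h.to_subtype
  ρ := ((resEnd m : Module.End ℤ E.Pt →+* _) : _ →* _).comp E.ρ
  T ℓ := resEnd m (E.T ℓ)
  T_comm ℓ ℓ' := (E.T_comm ℓ ℓ').map (resEnd m)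
  T_ρ_comm ℓ σ := (E.T_ρ_comm ℓ σ).map (resEnd m)
  smooth x := by
    obtain ⟨L, hL, h⟩ := E.smooth m hm x ((mem_tors m).mp x.2)
    exact ⟨L, hL, fun σ hσ => Subtype.ext (h σ hσ)⟩
  unram ℓ hℓ hℓm A hA σ hσ x :=
    Subtype.ext (E.unram m ℓ hℓ hℓm A hA σ hσ x ((mem_tors m).mp x.2))
  eichlerShimura ℓ hℓm A hA σ hσ x :=
    Subtype.ext (E.eichlerShimura m ℓ hℓm A hA σ hσ x ((mem_tors m).mp x.2))
  supp P hP := by
    apply E.supp m hm P
    intro x hx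
    rw [lift_resEnd] at hP
    exact congrArg (fun z => ((z ⟨x, (mem_tors m).mpr hx⟩ : tors E.Pt m) : E.Pt)) hP

variable {m : ℕ} (M : ESModule N m)

open Classical in
/-- the Hecke operators, indexed by all natural numbers (junk value `0`). -/
noncomputable def ESModule.Tn (ℓ : ℕ) : Module.End ℤ M.V :=
  if h : ℓ.Prime ∧ ¬ ℓ ∣ N then M.T ⟨ℓ, h⟩ else 0

theorem ESModule.Tn_good (ℓ : GoodPrime N) : M.Tn ℓ.1 = M.T ℓ := by
  rw [ESModule.Tn, dif_pos ℓ.2]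

theorem ESModule.Tn_ρ_comm (ℓ : ℕ) (σ : GQ) : Commute (M.Tn ℓ) (M.ρ σ) := by
  by_cases h : ℓ.Prime ∧ ¬ ℓ ∣ N
  · rw [ESModule.Tn, dif_pos h]
    exact M.T_ρ_comm ⟨ℓ, h⟩ σ
  · rw [ESModule.Tn, dif_neg h]
    exact Commute.zero_left _

theorem ESModule.finiteLevel : GaloisFactorsThroughFiniteLevel M.ρ := by
  classical
  choose L hL hLx using M.smooth
  have := Fintype.ofFinite M.V
  refine ⟨⨆ x, L x, IntermediateField.finiteDimensional_iSup_of_finite, fun σ hσ => ?_⟩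
  ext x
  exact hLx x σ fun y hy => hσ y ((le_iSup L x) hy)

theorem ESModule.ρ_unram {ℓ : ℕ} (hℓ : ℓ.Prime) (hℓm : ¬ ℓ ∣ N * m)
    {A : ValuationSubring Qb} (hA : A.LiesOverPrime ℓ) {σ : GQ}
    (hσ : σ ∈ A.inertiaSubgroupIn ℚ) : M.ρ σ = 1 := by
  ext x
  exact M.unram ℓ hℓ hℓm A hA σ hσ x

theorem ESModule.ρ_eichlerShimura {ℓ : ℕ} (hℓ : ℓ.Prime) (hℓm : ¬ ℓ ∣ N * m)
    {A : ValuationSubring Qb} (hA : A.LiesOverPrime ℓ) {σ : GQ} (hσ : A.IsFrobeniusAt σ ℓ) :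
    M.ρ σ * M.ρ σ - M.Tn ℓ * M.ρ σ + (ℓ : Module.End ℤ M.V) = 0 := by
  have h1 : ¬ ℓ ∣ N := fun h => hℓm (Dvd.dvd.mul_right h m)
  have h2 : ¬ ℓ ∣ m := fun h => hℓm (Dvd.dvd.mul_left h N)
  rw [M.Tn_good ⟨ℓ, hℓ, h1⟩]
  ext x
  have := M.eichlerShimura ⟨ℓ, hℓ, h1⟩ h2 A hA σ hσ x
  simpa using this

end Fermat.Agent.ES.D
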