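/-
ES (D7b): from an `ESGroup` of level `N` and Frobenius density to the residual representations
attached to normalized eigenforms of level `N`.
-/
import Fermat.Agent.ES.D.Abstract
import Fermat.Agent.ES.D.Support
import Fermat.Agent.ES.D.Eigen
import Fermat.Agent.ES.D.Torsion

set_option autoImplicit false

namespace Fermat.Agent.ES.D

open Polynomial ModularFormClass CongruenceSubgroup

variable {N : ℕ} [NeZero N] {g : CuspForm (Gamma0 N) 2}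

theorem exists_residual_algClosed (hFD : FrobPowerDensity) {p : ℕ} (hp : p.Prime)
    (M : ESModule N p) (hg : g.IsNormalizedEigenform) {K : Type} [Field K] [CharP K p]
    [IsAlgClosed K] (φ : integralClosure ℤ ℂ →+* K) :
    ∃ r : ResidualGaloisRep K, r.IsAttachedTo g φ ∧
      ∀ ℓ : ℕ, ℓ.Prime → ¬ ℓ ∣ N * p → r.IsUnramifiedAt ℓ := by
  classical
  obtain ⟨f₀, hf₀, hf₀T⟩ := exists_eigenfunctional (V := M.V) M.T M.T_comm
    (fun ℓ => φ (eigenvalue hg ℓ)) (fun P hP => supp_eigen M hg hp.pos φ P hP)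
  let lam : ℕ → K := fun ℓ => if h : ℓ.Prime ∧ ¬ ℓ ∣ N then φ (eigenvalue hg ⟨ℓ, h⟩) else 0
  have hNp : N * p ≠ 0 := mul_ne_zero (NeZero.ne N) hp.ne_zero
  have hS : ∀ ℓ : ℕ, ℓ.Prime → (ℓ ∉ (N * p).primeFactors ↔ ¬ ℓ ∣ N * p) := by
    intro ℓ hℓ
    rw [Nat.mem_primeFactors]
    constructor
    · intro h h'; exact h ⟨hℓ, h', hNp⟩
    · intro h h'; exact h h'.2.1
  obtain ⟨r, hr1, hr2⟩ := exists_residual hFD hp (N * p).primeFactors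
    (Nat.mem_primeFactors.mpr ⟨hp, Dvd.intro_left N rfl, hNp⟩) M.ρ
    M.finiteLevel M.Tn M.Tn_ρ_comm
    (fun ℓ hℓ hℓS A hA σ hσ => M.ρ_unram hℓ ((hS ℓ hℓ).mp hℓS) hA hσ)
    (fun ℓ hℓ hℓS A hA σ hσ => M.ρ_eichlerShimura hℓ ((hS ℓ hℓ).mp hℓS) hA hσ)
    lam f₀ hf₀ (by
      intro ℓ hℓ hℓS x
      have h1 : ¬ ℓ ∣ N := fun h => ((hS ℓ hℓ).mp hℓS) (Dvd.dvd.mul_right h p)
      have h2 := hf₀T ⟨ℓ, hℓ, h1⟩ x
      rw [M.Tn_good ⟨ℓ, hℓ, h1⟩]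
      simp only [lam, dif_pos (And.intro hℓ h1)]
      exact h2)
  refine ⟨r, ?_, fun ℓ hℓ hℓNp => hr2 ℓ hℓ ((hS ℓ hℓ).mpr hℓNp)⟩
  intro ℓ hℓ hℓN hℓK A hA σ hσ
  have hℓp : ¬ ℓ ∣ N * p := by
    intro h
    rcases (Nat.Prime.dvd_mul hℓ).mp h with h | h
    · exact hℓN h
    · rw [(Nat.prime_dvd_prime_iff_eq hℓ hp).mp h] at hℓK
      exact hℓK (CharP.cast_eq_zero K p)
  refine ⟨eigenvalue hg ⟨ℓ, hℓ, hℓN⟩, rfl, ?_⟩
  have := hr1 ℓ hℓ ((hS ℓ hℓ).mpr hℓp) A hA σ hσ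
  simp only [lam, dif_pos (And.intro hℓ hℓN)] at this
  exact this

end Fermat.Agent.ES.D
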