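/-
ES (D7c): residue fields of the ring of all algebraic integers are algebraically closed.
-/
import Mathlib

set_option autoImplicit false

namespace Fermat.Agent.ES.D

open Polynomial

theorem isMaximal_ker_of_charP {k : Type*} [Field k] {p : ℕ} [CharP k p] (hp : p.Prime)
    (φ : integralClosure ℤ ℂ →+* k) : (RingHom.ker φ).IsMaximal := by
  have hprime : (RingHom.ker φ).IsPrime := RingHom.ker_isPrime φ
  apply Ideal.isMaximal_of_isIntegral_of_isMaximal_comap (R := ℤ) (RingHom.ker φ)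
  have h1 : ((RingHom.ker φ).comap (algebraMap ℤ (integralClosure ℤ ℂ))).IsPrime :=
    Ideal.comap_isPrime _ _
  apply h1.isMaximal
  intro h0
  have h2 : (p : ℤ) ∈ (RingHom.ker φ).comap (algebraMap ℤ (integralClosure ℤ ℂ)) := by
    rw [Ideal.mem_comap, RingHom.mem_ker]
    simp
  rw [h0, Ideal.mem_bot] at h2
  exact hp.ne_zero (by exact_mod_cast h2)

theorem isAlgClosed_quot (𝔪 : Ideal (integralClosure ℤ ℂ)) [h𝔪 : 𝔪.IsMaximal] :
    letI := Ideal.Quotient.field 𝔪
    IsAlgClosed (integralClosure ℤ ℂ ⧸ 𝔪) := by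
  letI := Ideal.Quotient.field 𝔪
  apply IsAlgClosed.of_exists_root
  intro q hmonic hirr
  obtain ⟨Q, hQmap, hQdeg, hQmonic⟩ := Polynomial.lifts_and_degree_eq_and_monic
    (f := Ideal.Quotient.mk 𝔪) (p := q)
    ((Polynomial.mem_lifts q).mpr (Polynomial.map_surjective _ Ideal.Quotient.mk_surjective q))
    hmonic
  have hdeg : (Q.map (algebraMap (integralClosure ℤ ℂ) ℂ)).degree ≠ 0 := by
    rw [hQmonic.degree_map, hQdeg]
    exact (Polynomial.degree_pos_of_irreducible hirr).ne'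
  obtain ⟨z, hz⟩ := IsAlgClosed.exists_root _ hdeg
  have hz' : Polynomial.eval₂ (algebraMap (integralClosure ℤ ℂ) ℂ) z Q = 0 := by
    rwa [IsRoot.def, Polynomial.eval_map] at hz
  have hzint : IsIntegral (integralClosure ℤ ℂ) z := ⟨Q, hQmonic, hz'⟩
  have hzint' : IsIntegral ℤ z := isIntegral_trans z hzint
  let z' : integralClosure ℤ ℂ := ⟨z, hzint'⟩
  have hz'' : Q.eval z' = 0 := by
    apply Subtype.ext
    have : ((Q.eval z' : integralClosure ℤ ℂ) : ℂ)
        = Polynomial.eval₂ (algebraMap (integralClosure ℤ ℂ) ℂ) z Q := by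
      have h := Polynomial.hom_eval₂ Q (RingHom.id _) (algebraMap (integralClosure ℤ ℂ) ℂ) z'
      simpa [Polynomial.eval₂_id] using h
    rw [this, hz']
    rfl
  refine ⟨Ideal.Quotient.mk 𝔪 z', ?_⟩
  rw [← hQmap, Polynomial.eval_map, Polynomial.eval₂_hom, hz'', map_zero]

end Fermat.Agent.ES.D
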