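/-
ES (D7d): the frozen statement S29 from  (Frobenius density) + (existence of `ESGroup N`).
-/
import Fermat.Agent.ES.D.Residual
import Fermat.Agent.ES.D.ZbarQuot

set_option autoImplicit false

namespace Fermat.Agent.ES.D

open Polynomial ModularFormClass CongruenceSubgroup

/-- the trivial two-dimensional residual representation. -/
noncomputable def trivialResidual (k : Type) [Field k] : ResidualGaloisRep k :=
  { V := Fin 2 → k
    finrank_eq := by simp
    ρ := 1
    factorsThroughFiniteLevel := ⟨⊥, inferInstance, fun _ _ => rfl⟩ }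

theorem isAttachedTo_baseChangeAlong {K k : Type} [Field K] [Field k] (ι : K →+* k)
    (r : ResidualGaloisRep K) {N : ℕ} {g : CuspForm (Gamma0 N) 2}
    (φ₀ : integralClosure ℤ ℂ →+* K) (h : r.IsAttachedTo g φ₀) :
    (r.baseChangeAlong ι).IsAttachedTo g (ι.comp φ₀) := by
  intro ℓ hℓ hℓN hℓk A hA σ hσ
  have hℓK : (ℓ : K) ≠ 0 := by
    intro h0
    apply hℓk
    rw [← map_natCast ι, h0, map_zero]
  obtain ⟨a, ha, hchar⟩ := h ℓ hℓ hℓN hℓK A hA σ hσ
  refine ⟨a, ha, ?_⟩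
  letI : Algebra K k := ι.toAlgebra
  have h1 : LinearMap.charpoly ((r.baseChangeAlong ι).ρ σ)
      = (LinearMap.charpoly (r.ρ σ)).map (algebraMap K k) :=
    LinearMap.charpoly_baseChange (r.ρ σ) k
  rw [h1, hchar]
  have h2 : algebraMap K k = ι := rfl
  simp [h2]

theorem isUnramifiedAt_baseChangeAlong {K k : Type} [Field K] [Field k] (ι : K →+* k)
    (r : ResidualGaloisRep K) {ℓ : ℕ} (h : r.IsUnramifiedAt ℓ) :
    (r.baseChangeAlong ι).IsUnramifiedAt ℓ := by
  intro A hA σ hσ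
  letI : Algebra K k := ι.toAlgebra
  have h1 : (r.baseChangeAlong ι).ρ σ = (r.ρ σ).baseChange k := rfl
  rw [h1, h A hA σ hσ, LinearMap.baseChange_one]
  rfl

theorem S29_of (hFD : FrobPowerDensity) (hES : ∀ (N : ℕ) [NeZero N] (p : ℕ), p.Prime → Nonempty (ESModule N p))
    {N : ℕ} {g : CuspForm (Gamma0 N) 2} (hg : g.IsNormalizedEigenform)
    {p : ℕ} (hp : p.Prime) {k : Type} [Field k] [CharP k p]
    (φ : integralClosure ℤ ℂ →+* k) :
    ∃ ρ : ResidualGaloisRep k, ρ.IsAttachedTo g φ ∧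
      ∀ ℓ : ℕ, ℓ.Prime → ¬ ℓ ∣ N * p → ρ.IsUnramifiedAt ℓ := by
  rcases Nat.eq_zero_or_pos N with rfl | hN
  · refine ⟨trivialResidual k, ?_, ?_⟩
    · intro ℓ _ hℓN
      exact absurd (dvd_zero ℓ) hℓN
    · intro ℓ _ hℓN
      rw [zero_mul] at hℓN
      exact absurd (dvd_zero ℓ) hℓN
  · have : NeZero N := ⟨hN.ne'⟩
    obtain ⟨E⟩ := hES N p hp
    have hmax : (RingHom.ker φ).IsMaximal := isMaximal_ker_of_charP hp φ
    letI : Field (integralClosure ℤ ℂ ⧸ RingHom.ker φ) := Ideal.Quotient.field _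
    have hclosed : IsAlgClosed (integralClosure ℤ ℂ ⧸ RingHom.ker φ) := isAlgClosed_quot _
    have hchar : CharP (integralClosure ℤ ℂ ⧸ RingHom.ker φ) p := by
      rw [CharP.charP_iff_prime_eq_zero hp]
      rw [← map_natCast (Ideal.Quotient.mk (RingHom.ker φ)), Ideal.Quotient.eq_zero_iff_mem,
        RingHom.mem_ker, map_natCast, CharP.cast_eq_zero]
    obtain ⟨r, hr1, hr2⟩ := exists_residual_algClosed hFD hp E hg
      (Ideal.Quotient.mk (RingHom.ker φ))
    refine ⟨r.baseChangeAlong (RingHom.kerLift φ), ?_, fun ℓ hℓ hℓNp =>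
      isUnramifiedAt_baseChangeAlong _ r (hr2 ℓ hℓ hℓNp)⟩
    have h1 := isAttachedTo_baseChangeAlong (RingHom.kerLift φ) r _ hr1
    have h2 : (RingHom.kerLift φ).comp (Ideal.Quotient.mk (RingHom.ker φ)) = φ := by
      ext x; rfl
    rwa [h2] at h1

end Fermat.Agent.ES.D
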