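/-
ES (D7e): the frozen statement S42 from  (Frobenius density) + (existence of `ESModule N p`).
-/
import Fermat.Agent.ES.D.Residual
import Fermat.Agent.ES.D.ZbarQuot
import Fermat.Agent.S13.FiniteLevel
import Fermat.Prelude.Def_FreyPackage_EigenformResidualAttachment

set_option autoImplicit false

namespace Fermat.Agent.ES.D

open Polynomial ModularFormClass CongruenceSubgroup

/-- trace and determinant from a quadratic characteristic polynomial. -/
theorem trace_det_of_charpoly {K V : Type*} [Field K] [AddCommGroup V] [Module K V]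
    [Module.Finite K V] (h2 : Module.finrank K V = 2) (f : Module.End K V) {t d : K}
    (h : f.charpoly = X ^ 2 - C t * X + C d) :
    LinearMap.trace K V f = t ∧ LinearMap.det f = d := by
  classical
  let b := Module.finBasisOfFinrankEq K V h2
  have h1 : (LinearMap.toMatrix b b f).charpoly = X ^ 2 - C t * X + C d := by
    rw [LinearMap.charpoly_toMatrix, h]
  rw [Matrix.charpoly_fin_two] at h1
  have htr : (LinearMap.toMatrix b b f).trace = t := by
    have := congrArg (fun q => q.coeff 1) h1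
    simpa [Polynomial.coeff_X, Polynomial.coeff_C] using this
  have hdet : (LinearMap.toMatrix b b f).det = d := by
    have := congrArg (fun q => q.coeff 0) h1
    simpa [Polynomial.coeff_X, Polynomial.coeff_C] using this
  exact ⟨by rw [LinearMap.trace_eq_matrix_trace K b, htr], by rw [← LinearMap.det_toMatrix b, hdet]⟩

theorem S42_of (hFD : FrobPowerDensity)
    (hES : ∀ (N : ℕ) [NeZero N] (p : ℕ), p.Prime → Nonempty (ESModule N p)) (P : FreyPackage) :
    ∀ M : ℕ, 0 < M → P.EigenformResidualAttachmentAt M := by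
  intro M hM g hg 𝔪 h𝔪 hp𝔪
  have : NeZero M := ⟨hM.ne'⟩
  obtain ⟨E⟩ := hES M P.p P.pp
  letI : Field (integralClosure ℤ ℂ ⧸ 𝔪) := Ideal.Quotient.field 𝔪
  have hclosed : IsAlgClosed (integralClosure ℤ ℂ ⧸ 𝔪) := isAlgClosed_quot 𝔪
  have hchar : CharP (integralClosure ℤ ℂ ⧸ 𝔪) P.p := by
    rw [CharP.charP_iff_prime_eq_zero P.pp]
    rw [← map_natCast (Ideal.Quotient.mk 𝔪), Ideal.Quotient.eq_zero_iff_mem]
    exact hp𝔪
  obtain ⟨r, hr1, -⟩ := exists_residual_algClosed hFD P.pp E hg (Ideal.Quotient.mk 𝔪)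
  obtain ⟨L₁, hL₁, h₁⟩ := r.factorsThroughFiniteLevel
  obtain ⟨L₂, hL₂, h₂⟩ := S13.frey_finite_level P
  have hLfin : FiniteDimensional ℚ (L₁ ⊔ L₂ : IntermediateField ℚ Qb) :=
    IntermediateField.finiteDimensional_sup L₁ L₂
  have hACl : IsAlgClosure ℚ Qb := isAlgClosure_Qb
  have hnormalQb : Normal ℚ Qb := IsAlgClosure.normal ℚ Qb
  let F : IntermediateField ℚ Qb :=
    IntermediateField.normalClosure ℚ (L₁ ⊔ L₂ : IntermediateField ℚ Qb) Qb
  have hFnormal : Normal ℚ F := normalClosure.normal ℚ _ Qb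
  have hFfin : FiniteDimensional ℚ F := normalClosure.is_finiteDimensional ℚ _ Qb
  have hLF : L₁ ⊔ L₂ ≤ F := IntermediateField.le_normalClosure _
  have hNF : NumberField F := { to_charZero := inferInstance, to_finiteDimensional := hFfin }
  have hGal : IsGalois ℚ F := { to_isSeparable := inferInstance, to_normal := hFnormal }
  have hfix : ∀ σ : GQ, σ ∈ (AlgEquiv.restrictNormalHom (F := ℚ) (K₁ := Qb) F).ker →
      ∀ x ∈ F, σ x = x := by
    intro σ hσ x hx
    have h1 : AlgEquiv.restrictNormalHom (F := ℚ) (K₁ := Qb) F σ = 1 := hσ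
    have h2 := AlgEquiv.restrictNormal_commutes σ F ⟨x, hx⟩
    have h3 : σ.restrictNormal F = 1 := h1
    rw [h3] at h2
    exact h2.symm
  refine ⟨integralClosure ℤ ℂ ⧸ 𝔪, inferInstance, ZMod.algebra _ P.p, r.V, inferInstance,
    inferInstance, r.ρ, Ideal.Quotient.mk 𝔪, F, inferInstance, hNF, hGal, inferInstance,
    inferInstance, ?_, r.finrank_eq, ?_, ?_, ?_⟩
  · rw [Ideal.mk_ker]
  · intro σ hσ
    have hx := hfix σ hσ
    refine ⟨?_, ?_⟩
    · apply MonoidHom.mem_ker.mpr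
      ext z
      have := h₂ σ ((IntermediateField.mem_fixingSubgroup_iff _ σ).mpr fun x hx' =>
        hx x (hLF ((le_sup_right : L₂ ≤ L₁ ⊔ L₂) hx'))) z
      exact congrArg Subtype.val this
    · exact h₁ σ fun x hx' => hx x (hLF ((le_sup_left : L₁ ≤ L₁ ⊔ L₂) hx'))
  · intro ℓ hℓ hℓM hℓp A hA τ hτ
    have hℓK : ((ℓ : ℕ) : integralClosure ℤ ℂ ⧸ 𝔪) ≠ 0 := by
      intro h0
      exact hℓp ((Nat.prime_dvd_prime_iff_eq P.pp hℓ).mp ((CharP.cast_eq_zero_iff _ P.p ℓ).mp h0)).symm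
    obtain ⟨a, ha, hchar'⟩ := hr1 ℓ hℓ hℓM hℓK A hA τ hτ
    exact ⟨a, ha, (trace_det_of_charpoly r.finrank_eq _ hchar').1⟩
  · intro ℓ hℓ hℓM hℓp A hA τ hτ
    have hℓK : ((ℓ : ℕ) : integralClosure ℤ ℂ ⧸ 𝔪) ≠ 0 := by
      intro h0
      exact hℓp ((Nat.prime_dvd_prime_iff_eq P.pp hℓ).mp ((CharP.cast_eq_zero_iff _ P.p ℓ).mp h0)).symm
    obtain ⟨a, ha, hchar'⟩ := hr1 ℓ hℓ hℓM hℓK A hA τ hτ
    exact (trace_det_of_charpoly r.finrank_eq _ hchar').2

end Fermat.Agent.ES.D
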