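/-
ES (D): S29 and S42 from the core statement of CRUX.  When `Fermat.Agent.Crux.CoreStatement` is proved
(say by `core`):
* `Fermat/Agent/S29.lean` is the template with `exact Fermat.Agent.ES.D.S29_of_core core hg hp φ`,
* `Fermat/Agent/S42.lean` is the template with `exact Fermat.Agent.ES.D.S42_of_core core P`.
-/
import Fermat.Agent.ES.D.S29Of
import Fermat.Agent.ES.D.S42Of
import Fermat.Agent.ES.Glue.Supp
import Fermat.Agent.Lib.FrobDensity.ForES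
import Fermat.Agent.Crux.Reduce

set_option autoImplicit false

namespace Fermat.Agent.ES.D

open CongruenceSubgroup

/-- the Eichler-Shimura modules, from CRUX. -/
theorem nonempty_esModule_of_crux
    (hcrux : ∀ (N ℓ m : ℕ) [NeZero N], ℓ.Prime → ¬ ℓ ∣ N → ¬ ℓ ∣ m → Fermat.Agent.ES.Crux N ℓ m)
    (N : ℕ) [NeZero N] (p : ℕ) (hp : p.Prime) : Nonempty (ESModule N p) :=
  ⟨Fermat.Agent.ES.Glue.esModuleOfCrux hp.pos fun ℓ hℓ h =>
    hcrux N ℓ p hℓ (fun h' => h (Dvd.dvd.mul_right h' _)) (fun h' => h (Dvd.dvd.mul_left h' _))⟩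

theorem S29_of_crux
    (hcrux : ∀ (N ℓ m : ℕ) [NeZero N], ℓ.Prime → ¬ ℓ ∣ N → ¬ ℓ ∣ m → Fermat.Agent.ES.Crux N ℓ m)
    {N : ℕ} {g : CuspForm (Gamma0 N) 2} (hg : g.IsNormalizedEigenform)
    {p : ℕ} (hp : p.Prime) {k : Type} [Field k] [CharP k p]
    (φ : integralClosure ℤ ℂ →+* k) :
    ∃ ρ : ResidualGaloisRep k, ρ.IsAttachedTo g φ ∧
      ∀ ℓ : ℕ, ℓ.Prime → ¬ ℓ ∣ N * p → ρ.IsUnramifiedAt ℓ :=
  S29_of Fermat.Agent.FD.frobPowerDensity
    (fun N _ p hp => nonempty_esModule_of_crux hcrux N p hp) hg hp φ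

theorem S42_of_crux
    (hcrux : ∀ (N ℓ m : ℕ) [NeZero N], ℓ.Prime → ¬ ℓ ∣ N → ¬ ℓ ∣ m → Fermat.Agent.ES.Crux N ℓ m)
    (P : FreyPackage) : ∀ M : ℕ, 0 < M → P.EigenformResidualAttachmentAt M :=
  S42_of Fermat.Agent.FD.frobPowerDensity
    (fun N _ p hp => nonempty_esModule_of_crux hcrux N p hp) P

theorem S29_of_core (core : Fermat.Agent.Crux.CoreStatement)
    {N : ℕ} {g : CuspForm (Gamma0 N) 2} (hg : g.IsNormalizedEigenform)
    {p : ℕ} (hp : p.Prime) {k : Type} [Field k] [CharP k p]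
    (φ : integralClosure ℤ ℂ →+* k) :
    ∃ ρ : ResidualGaloisRep k, ρ.IsAttachedTo g φ ∧
      ∀ ℓ : ℕ, ℓ.Prime → ¬ ℓ ∣ N * p → ρ.IsUnramifiedAt ℓ :=
  S29_of_crux (fun N ℓ m _ hℓ hN hm => Fermat.Agent.Crux.crux_of_core core N ℓ m hℓ hN hm) hg hp φ

theorem S42_of_core (core : Fermat.Agent.Crux.CoreStatement) (P : FreyPackage) :
    ∀ M : ℕ, 0 < M → P.EigenformResidualAttachmentAt M :=
  S42_of_crux (fun N ℓ m _ hℓ hN hm => Fermat.Agent.Crux.crux_of_core core N ℓ m hℓ hN hm) P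

end Fermat.Agent.ES.D
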